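import Fermat.Agent.S44.Const.Field

/-!
# S44 / Const / GlueA : glue lemma (G1) = part (a) of `Const` (helper91 #3154)

* `pow_eq_of_smul` : `z = y + n • y₀ = y + m • y₀`, `y₀ ≠ 0` in `Kum N p`, `ζ ^ p = 1`  ⟹  `ζ ^ n = ζ ^ m`;
* `exists_b` : the function `b : G_ℚ → ℕ` fed to `Cover.cover_main`, chosen from `Const.exists_package`;
* `partA` : `g ϖ * ζ ^ b g = ϖ` for all `g` fixing `K₀`  ⟹  part (a) of `Const`.
-/

set_option autoImplicit false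

open AlgebraicCurve ModularCurve

namespace Fermat.Agent.S44.Const

open Fermat.Agent.ES Fermat.Agent.SS Fermat.Agent.S33

theorem dvd_sub_of_smul {N p : ℕ} (hp : p.Prime) {y₀ : Kum N p} (hy0 : y₀ ≠ 0) {n m : ℕ}
    (h : n • y₀ = m • y₀) : (p : ℤ) ∣ (n : ℤ) - m := by
  by_contra hnd
  have hcop : IsCoprime (p : ℤ) ((n : ℤ) - m) :=
    (Prime.coprime_iff_not_dvd (Nat.prime_iff_prime_int.mp hp)).2 hnd
  obtain ⟨u, v, huv⟩ := hcop
  apply hy0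
  have h1 : ((n : ℤ) - m) • y₀ = 0 := by
    rw [sub_smul, natCast_zsmul, natCast_zsmul, h, sub_self]
  have h2 : (p : ℤ) • y₀ = 0 := by
    rw [natCast_zsmul, Kum.nsmul_eq_zero]
  calc y₀ = (1 : ℤ) • y₀ := (one_smul _ _).symm
    _ = (u * p + v * ((n : ℤ) - m)) • y₀ := by rw [huv]
    _ = 0 := by rw [add_smul, mul_smul, mul_smul, h1, h2, smul_zero, smul_zero, add_zero]

theorem pow_eq_of_smul {N p : ℕ} (hp : p.Prime) {y₀ y z : Kum N p} (hy0 : y₀ ≠ 0) {n m : ℕ}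
    (h1 : z = y + n • y₀) (h2 : z = y + m • y₀) {ζ : Qb} (hζ : ζ ^ p = 1) : ζ ^ n = ζ ^ m := by
  have h3 : n • y₀ = m • y₀ := add_left_cancel (h1.symm.trans h2)
  have h4 := dvd_sub_of_smul hp hy0 h3
  have h5 : n % p = m % p := by
    have : (n : ℤ) ≡ m [ZMOD p] := (Int.modEq_iff_dvd.2 (by
      have := h4
      rwa [← neg_sub, dvd_neg] at this)).symm
    exact (Int.natCast_modEq_iff.1 this)
  rw [pow_eq_pow_mod n hζ, pow_eq_pow_mod m hζ, h5]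

theorem exists_b {N p : ℕ} {y₀ y : Kum N p} (K₀ : IntermediateField ℚ Qb)
    (h : ∀ g : GQ, (∀ x ∈ K₀, g x = x) → galKum N p g y₀ = y₀ ∧
      ∃ n : ℕ, galKum N p g y = y + n • y₀) :
    ∃ b : GQ → ℕ, ∀ g : GQ, (∀ x ∈ K₀, g x = x) → galKum N p g y = y + b g • y₀ := by
  classical
  refine ⟨fun g => if hg : ∀ x ∈ K₀, g x = x then (h g hg).2.choose else 0, fun g hg => ?_⟩
  simp only [dif_pos hg]
  exact (h g hg).2.choose_spec

/-- **(G1)** part (a) of `Const`. -/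
theorem partA {N p : ℕ} (hp : p.Prime) {A : ValuationSubring Qb} {ζ : Qb} (hζ : ζ ^ p = 1)
    {y₀ y : Kum N p} (hy0 : y₀ ≠ 0) (K₀ : IntermediateField ℚ Qb)
    (hI1 : ∀ s ∈ I1 A ζ, ∀ x ∈ K₀, s x = x) (b : GQ → ℕ)
    (hb : ∀ g : GQ, (∀ x ∈ K₀, g x = x) → galKum N p g y = y + b g • y₀)
    (ϖ : Qb) (hϖ : ∀ g : GQ, (∀ x ∈ K₀, g x = x) → g ϖ * ζ ^ b g = ϖ) :
    ∀ s ∈ I1 A ζ, ∀ n : ℕ, galKum N p s y = y + n • y₀ → s ϖ * ζ ^ n = ϖ := by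
  intro s hs n hn
  rw [pow_eq_of_smul hp hy0 hn (hb s (hI1 s hs)) hζ]
  exact hϖ s (hI1 s hs)

end Fermat.Agent.S44.Const
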