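import Fermat.Agent.S44.Const.AbsX
import Fermat.Agent.S44.PL.Root

/-!
# S44 / Const / GlueX : `absX` with the inputs in the shape delivered by `PL.cover_abstract` (`Inst.of_pair`), `Cover.cover_main`, `Cover.invK_cover`.

`absX'` : all functions are given by their `q`-expansions in `F_K(M p)`; `t₀` is ANY `p`-th root of `Φ W`.
-/

set_option autoImplicit false
set_option linter.unusedSectionVars false
set_option linter.style.haveILetI false

open Polynomial ModularCurve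

namespace Fermat.Agent.S44.Const

open Fermat.Agent.Crux.G Fermat.Agent.SS.G2 Fermat.Agent.S44.Loc Fermat.Agent.SS.GM2
open Fermat.Agent.S44.Bridge
open Fermat.Agent.S28 (V J evAt)
open Fermat.Agent.Crux.GM (castS)

noncomputable section

variable {M p : ℕ} [NeZero M] [NeZero p]
variable {A K k : Type} [CommRing A] [IsDomain A] [IsDiscreteValuationRing A] [Field K]
  [CharZero K] [Algebra A K] [IsFractionRing A K] [Field k] [Finite k]
  {r : A →+* k} {π : A}
variable {F : Type} [Field F] [Algebra A F] {Φ : F →+* LaurentSeries K} {w : F →+* F}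
variable {E : Type} [Field E] [CharZero E] [Algebra A E] [Algebra E F] [IsScalarTower A E F]
  [FiniteDimensional E F]
variable {X : E} {ζ : A}

/-- **layer 3, chart `X`**, inputs = outputs of `cover_abstract`, `cover_main`, `invK_cover`. -/
theorem absX' (C : PL.Ctx M p r π Φ w X ζ) (hp5 : 5 ≤ p) {W : F} {t₀ : LaurentSeries K}
    (ht₀ : t₀ ^ p = Φ W) (hnp : ∀ h : F, h ^ p ≠ W)
    {Y₁ η ξ' ξ g₁ g₂ : F} (hY₁ : Y₁ ≠ 0)
    (hYW : Y₁ ^ p * W = 1 + algebraMap A F π ^ p * ξ')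
    (hξ' : IntX A X⁻¹ ξ') (hco : ∀ n : ℤ, n ≤ 0 → (Φ ξ').coeff n = 0) (hη : IsOLx π X η)
    (hrel : (1 + algebraMap A F π * η) ^ p * (1 + algebraMap A F π ^ p * ξ')
      = 1 + algebraMap A F π ^ p * ξ)
    (hξ : IntX A X ξ) (hg₁ : IntX A X g₁) (hg₂ : IntX A X g₂)
    (hr₁ : RedK r (Φ (g₁ ^ p - g₁ - ξ)) 0) (hr₂ : RedK r (Φ (w (g₂ ^ p - g₂ - ξ))) 0)
    (a c : ℕ → LaurentSeries K) (ha : ∀ i, a i ∈ modularFunctionFieldFullC K (M * p))
    (hc : ∀ i, c i ∈ modularFunctionFieldFullC K (M * p))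
    (h0 : ∑ i ∈ Finset.range p, a i * t₀ ^ i ≠ 0)
    {εβ : A} (hεβ : IsUnit εβ) {nβ : ℤ}
    (hτ : ∑ i ∈ Finset.range p, a i * (HahnSeries.C (algebraMap A K ζ) * t₀) ^ i
      = HahnSeries.C (algebraMap A K εβ * algebraMap A K π ^ ((p : ℤ) * nβ))
        * (∑ i ∈ Finset.range p, a i * t₀ ^ i) * (∑ i ∈ Finset.range p, c i * t₀ ^ i) ^ p)
    {n : ℕ} (uu vv : Fin n → ℕ → LaurentSeries K)
    (huu : ∀ j i, uu j i ∈ modularFunctionFieldFullC K (M * p))
    (hvv : ∀ j i, vv j i ∈ modularFunctionFieldFullC K (M * p))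
    (hU : ∀ j, (evAt (castS K (Xh M p))).IsIntegralElem
      ((∑ i ∈ Finset.range p, uu j i * t₀ ^ i) ^ p * (∑ i ∈ Finset.range p, a i * t₀ ^ i)))
    (hV : ∀ j, (evAt (castS K (Xh M p))).IsIntegralElem
      ((∑ i ∈ Finset.range p, vv j i * t₀ ^ i) ^ p * (∑ i ∈ Finset.range p, a i * t₀ ^ i)⁻¹))
    (hUV : ∑ j, (∑ i ∈ Finset.range p, uu j i * t₀ ^ i)
      * (∑ i ∈ Finset.range p, vv j i * t₀ ^ i) = 1)
    (xb Xb : modularFunctionFieldFullC k M)
    (hxb : (xb : LaurentSeries k) = castS k (Xh M p))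
    (hXb : (Xb : LaurentSeries k) = XD.XD k p) :
    ∃ (a' c' : ℤ) (φ : modularFunctionFieldFullC k M), φ ≠ 0 ∧
      RedK r ((∑ i ∈ Finset.range p, a i * t₀ ^ i)
        * (HahnSeries.C (algebraMap A K π) : LaurentSeries K) ^ (-a')) (φ : LaurentSeries k) ∧
      ∀ W : ValuationSubring (modularFunctionFieldFullC k M), xb ∈ W →
        ∃ y : modularFunctionFieldFullC k M, y ≠ 0 ∧
          IsUnitIn W (y ^ p * (φ ^ (12 * (p - 1)) * Xb ^ c')) := by
  classical
  obtain ⟨t, z', z, b', b, ht, -, htz, -, -, hb⟩ := C.exists_redK_z hξ' hco hη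
  -- `1 + π η ≠ 0`
  have hη0 : 1 + algebraMap A F π * η ≠ 0 := by
    intro h
    obtain ⟨a₁, -, ha₁, -⟩ := (C.isOLx_iff η).1 hη
    have h1 := (RedK.one (r := r) (K := K)).add ((RedK.of_C (r := r) (K := K) π).mul ha₁)
    rw [← C.S.hΦA, ← map_mul, ← map_one Φ, ← map_add, h, map_zero,
      Fermat.Agent.Crux.GM.map_irreducible_eq_zero r π C.S.hr C.S.hπ, map_zero, zero_mul,
      add_zero] at h1
    exact one_ne_zero (h1.unique RedK.zero)
  have hW0 : W ≠ 0 := by
    rintro rfl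
    exact hnp 0 (zero_pow C.hp.ne_zero)
  have ht₀0 : t₀ ≠ 0 := by
    rintro rfl
    rw [zero_pow C.hp.ne_zero] at ht₀
    exact hW0 ((map_eq_zero Φ).1 ht₀.symm)
  have hΦY₁ : Φ Y₁ ≠ 0 := by rwa [Ne, map_eq_zero]
  -- `t = ζ^j Φ Y₁ t₀`
  have hζL : IsPrimitiveRoot (HahnSeries.C (algebraMap A K ζ) : LaurentSeries K) p :=
    (C.hζ.map_of_injective (IsFractionRing.injective A K)).map_of_injective
      HahnSeries.C_injective
  have hΦπ : Φ (algebraMap A F π) = HahnSeries.C (algebraMap A K π) := C.S.hΦA π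
  have e1 : (Φ Y₁ * t₀) ^ p = 1 + HahnSeries.C (algebraMap A K π) ^ p * Φ ξ' := by
    have h1 := congrArg Φ hYW
    simp only [map_mul, map_pow, map_add, map_one, hΦπ] at h1
    rw [mul_pow, ht₀, h1]
  have hpow : (t / (Φ Y₁ * t₀)) ^ p = 1 := by
    rw [div_pow, ht, e1]
    refine div_self ?_
    rw [← e1]
    exact pow_ne_zero p (mul_ne_zero hΦY₁ ht₀0)
  haveI : NeZero p := ⟨C.hp.ne_zero⟩
  obtain ⟨j, -, hj⟩ := hζL.eq_pow_of_pow_eq_one hpow
  have htt : t = Φ (algebraMap A F (ζ ^ j) * Y₁) * t₀ := by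
    rw [map_mul, C.S.hΦA, map_pow, map_pow, hj]
    field_simp
  have hζ0 : algebraMap A F (ζ ^ j) ≠ 0 := by
    intro h
    have h1 := C.S.hΦA (ζ ^ j)
    rw [h, map_zero, map_pow, map_pow, hj] at h1
    have h2 : t ≠ 0 := by
      intro h3
      rw [h3, zero_div, zero_pow C.hp.ne_zero] at hpow
      exact zero_ne_one hpow
    exact div_ne_zero h2 (mul_ne_zero hΦY₁ ht₀0) h1.symm
  -- preimages
  choose af haf using fun i => (C.S.hΦF (a i)).1 (ha i)
  choose cf hcf using fun i => (C.S.hΦF (c i)).1 (hc i)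
  choose uf huf using fun j i => (C.S.hΦF (uu j i)).1 (huu j i)
  choose vf hvf using fun j i => (C.S.hΦF (vv j i)).1 (hvv j i)
  have := absX C hp5 (Y := (1 + algebraMap A F π * η) * (algebraMap A F (ζ ^ j) * Y₁))
    (t₀ := t₀) (z := z) (b := b) hξ hg₁ hg₂ hr₁ hr₂ ?_ (mul_ne_zero hη0 (mul_ne_zero hζ0 hY₁)) ?_ ?_
    hb af cf (by simpa only [haf] using h0) hεβ (nβ := nβ) (by simpa only [haf, hcf] using hτ)
    uf vf (by simpa only [haf, huf] using hU) (by simpa only [haf, hvf] using hV)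
    (by simpa only [huf, hvf] using hUV) xb Xb hxb hXb
  · simpa only [haf] using this
  · -- not a `p`-th power
    intro h hh
    apply hnp (h / ((1 + algebraMap A F π * η) * Y₁))
    rw [div_pow, hh, ← hrel, ← hYW, mul_pow]
    field_simp
  · rw [map_mul, mul_assoc, ← htt]
    exact htz
  · have e2 := congrArg Φ hrel
    simp only [map_mul, map_pow, map_add, map_one, hΦπ] at e2
    rw [← htz, mul_pow, ht]
    simp only [map_mul, map_add, map_one, hΦπ]
    exact e2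

end

end Fermat.Agent.S44.Const
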