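import Fermat.Agent.S44.PL.Root
import Fermat.Agent.S44.XD.Chart

/-!
# S44 / Const / MainA : the inputs of `Const.absX` from the conclusion of `PL.cover_abstract`   (abstract `PL.Ctx` setting)

* `Ctx.exists_Y` : `Y`, `z`, `b` with `Φ Y * t₀ = 1 + π z`, `(1 + π z)^p = 1 + π^p ξ`, `z` Gauss-integral; `1 + π^p ξ` is not a `p`-th power; `t₀` is Gauss-integral up to a power of `π`.
* `Ctx.exists_xb` : `castS k (Xh M p)`, `XD k p` lie in `F_k(M)`.
-/

set_option autoImplicit false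
set_option linter.unusedSectionVars false
set_option linter.style.haveILetI false

open Polynomial ModularCurve

namespace Fermat.Agent.S44.Const

open Fermat.Agent.Crux.G Fermat.Agent.SS.G2 Fermat.Agent.SS.GM2
open Fermat.Agent.S28 (V J evAt)
open Fermat.Agent.Crux.GM (castS)
open Fermat.Agent.S44.PL (lam)

variable {M p : ℕ} [NeZero M] [NeZero p]
variable {A K k : Type} [CommRing A] [IsDomain A] [IsDiscreteValuationRing A] [Field K]
  [CharZero K] [Algebra A K] [IsFractionRing A K] [Field k] [Finite k]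
  {r : A →+* k} {π : A}
variable {F : Type} [Field F] [Algebra A F] {Φ : F →+* LaurentSeries K} {w : F →+* F}
variable {E : Type} [Field E] [CharZero E] [Algebra A E] [Algebra E F] [IsScalarTower A E F]
  [FiniteDimensional E F]
variable {X : E} {ζ : A}

theorem MainA_ne_zero_of_redK {x : LaurentSeries K} {a : LaurentSeries k} (h : RedK r x a)
    (ha : a ≠ 0) : x ≠ 0 := by
  rintro rfl
  exact ha (h.unique RedK.zero)

theorem exists_Y (C : PL.Ctx M p r π Φ w X ζ) {W Y₁ η ξ' ξ : F} {t₀ : LaurentSeries K}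
    (ht₀ : t₀ ^ p = Φ W) (hY₁ : Y₁ ≠ 0)
    (hYW : Y₁ ^ p * W = 1 + algebraMap A F π ^ p * ξ')
    (hξ' : IntX A X⁻¹ ξ') (hco : ∀ n : ℤ, n ≤ 0 → (Φ ξ').coeff n = 0) (hη : IsOLx π X η)
    (hrel : (1 + algebraMap A F π * η) ^ p * (1 + algebraMap A F π ^ p * ξ')
      = 1 + algebraMap A F π ^ p * ξ)
    (hnp : ∀ h : F, h ^ p ≠ W) :
    ∃ (Y : F) (z : LaurentSeries K) (b : LaurentSeries k), Y ≠ 0 ∧
      Φ Y * t₀ = 1 + HahnSeries.C (algebraMap A K π) * z ∧
      (1 + HahnSeries.C (algebraMap A K π) * z) ^ p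
        = 1 + HahnSeries.C (algebraMap A K π) ^ p * Φ ξ ∧
      RedK r z b ∧ (∀ h : F, h ^ p ≠ 1 + algebraMap A F π ^ p * ξ) ∧
      ∃ (n : ℤ) (tb : LaurentSeries k),
        RedK r (t₀ * HahnSeries.C (algebraMap A K π ^ n)) tb := by
  obtain ⟨t, z', z, b', b, ht, -, hz, -, -, hb⟩ := C.exists_redK_z hξ' hco hη
  have hr := C.S.hr
  have hπ := C.S.hπ
  -- `1 + π z` is a Gauss unit
  have hred1 : RedK r (1 + lam K π * z) 1 := by
    have := RedK.one.add (PL.RedK.lam_mul hr hπ hb)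
    rwa [add_zero] at this
  have h1z : 1 + lam K π * z ≠ 0 := MainA_ne_zero_of_redK hred1 one_ne_zero
  have hη0 : 1 + algebraMap A F π * η ≠ 0 := by
    intro h0
    rw [h0, map_zero, zero_mul] at hz
    exact h1z hz.symm
  have ht0 : t ≠ 0 := by
    rintro rfl
    rw [mul_zero] at hz
    exact h1z hz.symm
  -- the two roots
  have hpow : (Φ Y₁ * t₀) ^ p = t ^ p := by
    rw [mul_pow, ht₀, ← map_pow, ← map_mul, hYW, ht, map_add, map_one, map_mul, map_pow, C.S.hΦA]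
  have hζL : IsPrimitiveRoot (HahnSeries.C (algebraMap A K ζ) : LaurentSeries K) p :=
    (C.hζ.map_of_injective (IsFractionRing.injective A K)).map_of_injective
      HahnSeries.C_injective
  obtain ⟨i, -, hi⟩ := hζL.eq_pow_of_pow_eq_one (ξ := Φ Y₁ * t₀ / t) (by
    rw [div_pow, hpow, div_self (pow_ne_zero p ht0)])
  have hζ0 : algebraMap A F ζ ≠ 0 := by
    intro h0
    have h1 := C.S.hΦA ζ
    rw [h0, map_zero] at h1
    exact hζL.ne_zero (NeZero.ne p) h1.symm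
  have hYt : Φ Y₁ * t₀ = HahnSeries.C (algebraMap A K ζ) ^ i * t := by
    rw [hi, div_mul_cancel₀ _ ht0]
  have hY0 : (1 + algebraMap A F π * η) * Y₁ * (algebraMap A F ζ ^ i)⁻¹ ≠ 0 :=
    mul_ne_zero (mul_ne_zero hη0 hY₁) (inv_ne_zero (pow_ne_zero i hζ0))
  have hYt₀ : Φ ((1 + algebraMap A F π * η) * Y₁ * (algebraMap A F ζ ^ i)⁻¹) * t₀
      = 1 + lam K π * z := by
    rw [← hz, map_mul, map_mul, map_inv₀, map_pow, C.S.hΦA ζ]
    have hne : (HahnSeries.C (algebraMap A K ζ) : LaurentSeries K) ^ i ≠ 0 :=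
      pow_ne_zero i (hζL.ne_zero (NeZero.ne p))
    calc Φ (1 + algebraMap A F π * η) * Φ Y₁ * (HahnSeries.C (algebraMap A K ζ) ^ i)⁻¹ * t₀
        = Φ (1 + algebraMap A F π * η) * (HahnSeries.C (algebraMap A K ζ) ^ i)⁻¹
            * (Φ Y₁ * t₀) := by ring
      _ = Φ (1 + algebraMap A F π * η) * t := by
          rw [hYt]
          field_simp
  refine ⟨_, z, b, hY0, hYt₀, ?_, hb, ?_, ?_⟩
  · show (1 + lam K π * z) ^ p = 1 + lam K π ^ p * Φ ξ
    rw [← hz, mul_pow, ht]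
    have h1 := congrArg Φ hrel
    have h2 : ∀ x : F, Φ (1 + algebraMap A F π ^ p * x) = 1 + lam K π ^ p * Φ x := by
      intro x
      rw [map_add, map_one, map_mul, map_pow, C.S.hΦA]
    rw [map_mul, map_pow, h2, h2] at h1
    exact h1
  · intro h hh
    apply hnp (h * ((1 + algebraMap A F π * η) * Y₁)⁻¹)
    rw [mul_pow, hh, ← hrel, ← hYW, inv_pow, mul_pow]
    have h1 := pow_ne_zero p hη0
    have h2 := pow_ne_zero p hY₁
    field_simp
  · -- scaling of `t₀`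
    set Y : F := (1 + algebraMap A F π * η) * Y₁ * (algebraMap A F ζ ^ i)⁻¹ with hY
    have hΦY0 : Φ Y ≠ 0 := (map_ne_zero Φ).2 hY0
    obtain ⟨n, u, s, -, hu, hx⟩ := PL.RedK.pivot (N := M * p) hr hπ
      ((C.S.hΦF (Φ Y⁻¹)).2 ⟨Y⁻¹, rfl⟩) ((map_ne_zero Φ).2 (inv_ne_zero hY0))
    refine ⟨-n, 1 * s, ?_⟩
    have hlam : (lam K π : LaurentSeries K) ≠ 0 := by
      rw [Ne, map_eq_zero_iff _ HahnSeries.C_injective,
        map_eq_zero_iff _ (IsFractionRing.injective A K)]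
      exact hπ.ne_zero
    have e : t₀ * HahnSeries.C (algebraMap A K π ^ (-n)) = (1 + lam K π * z) * u := by
      have h1 : t₀ = (1 + lam K π * z) * Φ Y⁻¹ := by
        rw [← hYt₀, map_inv₀]
        field_simp
      have h2 : (HahnSeries.C (algebraMap A K π ^ (-n)) : LaurentSeries K) = lam K π ^ (-n) := by
        rw [map_zpow₀]
      rw [h2, h1, hx, mul_assoc, mul_assoc, mul_comm u, ← mul_assoc (lam K π ^ n), ← zpow_add₀ hlam,
        add_neg_cancel, zpow_zero, one_mul]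
    rw [e]
    exact hred1.mul hu

theorem exists_xb (C : PL.Ctx M p r π Φ w X ζ) :
    ∃ xb Xb : modularFunctionFieldFullC k M, (xb : LaurentSeries k) = castS k (Xh M p) ∧
      (Xb : LaurentSeries k) = XD.XD k p := by
  have hζK : IsPrimitiveRoot (algebraMap A K ζ) p :=
    C.hζ.map_of_injective (IsFractionRing.injective A K)
  obtain ⟨Jf, Yf, hJ, hY⟩ := C.S.exists_J
  haveI : Fact p.Prime := ⟨C.hp⟩
  obtain ⟨Xf, Uf, -, -, -, -, -, -, -, hr1, -, -, hr4⟩ := XD.Setup.exists_XD C.S hζK hJ hY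
  have h1 : RedK r (Φ (algebraMap E F X)) (castS k (Xh M p)) := by
    rw [C.hX]; exact RedK.of_castS _
  have h2 : RedK r (Φ (w (algebraMap E F X))) (castS k (Xh M p)) := by
    rw [C.wX]; exact h1
  exact ⟨⟨_, C.ql.mem _ _ _ h1 h2⟩, ⟨_, C.ql.mem _ _ _ hr1 hr4⟩, rfl, rfl⟩

end Fermat.Agent.S44.Const
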