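import Fermat.Agent.S44.Const.Abs

/-!
# S44 / Const / Red : reduction of the cover ring, and the two abstract chart theorems `ncv`, `cuv`.

`ρ : S →+* L` with kernel `Q`;  `rho' pb ρ a : S' →+* L`, `z ↦ ρ a`, kernel `up pb Q a`.
`RedF ρ' x r` : `x ∈ F'` is a quotient `o / s`, `ρ' s ≠ 0`, and `r = ρ' o / ρ' s`.
-/

set_option autoImplicit false
set_option linter.unusedSectionVars false
set_option linter.style.haveILetI false

open Polynomial

namespace Fermat.Agent.S44.Const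

open Fermat.Agent.S44.Loc

/-- `z` is a unit of the valuation ring `V`. -/
def IsUnitIn {L : Type*} [Field L] (V : ValuationSubring L) (z : L) : Prop := z ∈ V ∧ z⁻¹ ∈ V

namespace IsUnitIn

variable {L : Type*} [Field L] {V : ValuationSubring L} {z z' : L}

theorem mul (h : IsUnitIn V z) (h' : IsUnitIn V z') : IsUnitIn V (z * z') :=
  ⟨V.mul_mem _ _ h.1 h'.1, by rw [mul_inv]; exact V.mul_mem _ _ h.2 h'.2⟩

theorem inv (h : IsUnitIn V z) : IsUnitIn V z⁻¹ := ⟨h.2, by rw [inv_inv]; exact h.1⟩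

theorem one : IsUnitIn V (1 : L) := ⟨V.one_mem, by rw [inv_one]; exact V.one_mem⟩

theorem pow (h : IsUnitIn V z) (n : ℕ) : IsUnitIn V (z ^ n) :=
  ⟨pow_mem h.1 n, by rw [← inv_pow]; exact pow_mem h.2 n⟩

theorem zpow (h : IsUnitIn V z) (n : ℤ) : IsUnitIn V (z ^ n) := by
  obtain ⟨k, rfl | rfl⟩ := n.eq_nat_or_neg
  · rw [zpow_natCast]; exact h.pow k
  · rw [zpow_neg, zpow_natCast]; exact (h.pow k).inv

end IsUnitIn

section RedF

variable {S' F' L : Type*} [CommRing S'] [Field F'] [Algebra S' F'] [Field L]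

/-- `x = o / s` with `ρ' s ≠ 0`, `r = ρ' o / ρ' s`. -/
def RedF (ρ' : S' →+* L) (x : F') (r : L) : Prop :=
  ∃ s o : S', ρ' s ≠ 0 ∧ algebraMap S' F' s * x = algebraMap S' F' o ∧ r = ρ' o / ρ' s

variable {ρ' : S' →+* L} {x x' : F'} {r r' : L}

theorem RedF.of_algebraMap (o : S') : RedF ρ' (algebraMap S' F' o) (ρ' o) :=
  ⟨1, o, by rw [map_one]; exact one_ne_zero, by rw [map_one, one_mul], by rw [map_one, div_one]⟩

theorem RedF.mul (h : RedF ρ' x r) (h' : RedF ρ' x' r') : RedF ρ' (x * x') (r * r') := by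
  obtain ⟨s, o, hs, e, rfl⟩ := h
  obtain ⟨s', o', hs', e', rfl⟩ := h'
  refine ⟨s * s', o * o', by rw [map_mul]; exact mul_ne_zero hs hs', ?_, ?_⟩
  · rw [map_mul, map_mul, ← e, ← e']; ring
  · rw [map_mul, map_mul, div_mul_div_comm]

theorem RedF.one : RedF ρ' (1 : F') 1 := by
  have := RedF.of_algebraMap (F' := F') (ρ' := ρ') 1
  rwa [map_one, map_one] at this

theorem RedF.pow (h : RedF ρ' x r) (n : ℕ) : RedF ρ' (x ^ n) (r ^ n) := by
  induction n with
  | zero => rw [pow_zero, pow_zero]; exact RedF.one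
  | succ n ih => rw [pow_succ, pow_succ]; exact ih.mul h

theorem RedF.inv [IsDomain S'] [IsFractionRing S' F'] (h : RedF ρ' x r) (hr : r ≠ 0) :
    RedF ρ' x⁻¹ r⁻¹ := by
  obtain ⟨s, o, hs, e, rfl⟩ := h
  have ho : ρ' o ≠ 0 := fun h0 => hr (by rw [h0, zero_div])
  have ho' : algebraMap S' F' o ≠ 0 := by
    intro h0
    rw [map_eq_zero_iff _ (IsFractionRing.injective S' F')] at h0
    exact ho (by rw [h0, map_zero])
  refine ⟨o, s, ho, ?_, by rw [inv_div]⟩
  have hx : x ≠ 0 := by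
    rintro rfl
    rw [mul_zero] at e
    exact ho' e.symm
  rw [← e]
  field_simp

theorem RedF.zpow [IsDomain S'] [IsFractionRing S' F'] (h : RedF ρ' x r) (hr : r ≠ 0) (n : ℤ) :
    RedF ρ' (x ^ n) (r ^ n) := by
  obtain ⟨k, rfl | rfl⟩ := n.eq_nat_or_neg
  · rw [zpow_natCast, zpow_natCast]; exact h.pow k
  · rw [zpow_neg, zpow_natCast, zpow_neg, zpow_natCast]
    exact (h.pow k).inv (pow_ne_zero _ hr)

theorem RedF.unique [IsDomain S'] [IsFractionRing S' F'] (h : RedF ρ' x r) (h' : RedF ρ' x r') :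
    r = r' := by
  obtain ⟨s, o, hs, e, rfl⟩ := h
  obtain ⟨s', o', hs', e', rfl⟩ := h'
  have h1 : s' * o = s * o' := by
    apply IsFractionRing.injective S' F'
    rw [map_mul, map_mul, ← e, ← e']; ring
  have h2 := congrArg ρ' h1
  rw [map_mul, map_mul] at h2
  rw [div_eq_div_iff hs hs']
  linear_combination h2

theorem RedF.congr (h : RedF ρ' x r) (hx : x = x') : RedF ρ' x' r := hx ▸ h

end RedF

section Rho

variable {S S' : Type*} [CommRing S] [CommRing S'] [Algebra S S'] (pb : PowerBasis S S')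
  {L : Type*} [Field L]

/-- the reduction on the cover ring. -/
noncomputable def rho' (ρ : S →+* L) {Q : Ideal S} (hρ : ∀ x ∈ Q, ρ x = 0) (a : S)
    (ha : (minpoly S pb.gen).eval a ∈ Q) : S' →+* L :=
  (Ideal.Quotient.lift Q ρ hρ).comp (ev pb Q a ha : S' →+* S ⧸ Q)

variable {pb} {ρ : S →+* L} {Q : Ideal S} (hρ : ∀ x ∈ Q, ρ x = 0) {a : S}
  (ha : (minpoly S pb.gen).eval a ∈ Q)

theorem rho'_algebraMap (s : S) : rho' pb ρ hρ a ha (algebraMap S S' s) = ρ s := by
  change Ideal.Quotient.lift Q ρ hρ (ev pb Q a ha (algebraMap S S' s)) = _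
  rw [ev_algebraMap, Ideal.Quotient.lift_mk]

theorem rho'_gen : rho' pb ρ hρ a ha pb.gen = ρ a := by
  change Ideal.Quotient.lift Q ρ hρ (ev pb Q a ha pb.gen) = _
  rw [ev_gen, Ideal.Quotient.lift_mk]

/-- every value of `rho'` is a value of `ρ`, compatibly with all the `up n a`. -/
theorem exists_rep (x : S') : ∃ s : S, rho' pb ρ hρ a ha x = ρ s ∧
    ∀ (n : Ideal S) (han : (minpoly S pb.gen).eval a ∈ n), x ∈ up pb n a han ↔ s ∈ n := by
  obtain ⟨x₀, w, rfl⟩ := exists_eq_add_mul pb a x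
  refine ⟨x₀, ?_, fun n han => ?_⟩
  · rw [map_add, map_mul, map_sub, rho'_algebraMap, rho'_algebraMap, rho'_gen, sub_self, zero_mul,
      add_zero]
  · rw [← algebraMap_mem_up_iff (pb := pb) han]
    have h1 := (up pb n a han).mul_mem_right w (gen_sub_mem_up han)
    constructor
    · intro h
      have := (up pb n a han).sub_mem h h1
      rwa [add_sub_cancel_right] at this
    · intro h
      exact (up pb n a han).add_mem h h1

theorem rho'_ne_zero (hker : ∀ x, ρ x = 0 → x ∈ Q) {x : S'} (hx : x ∉ up pb Q a ha) :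
    rho' pb ρ hρ a ha x ≠ 0 := by
  obtain ⟨s, hs, h⟩ := exists_rep hρ ha x
  rw [hs]
  exact fun h0 => hx ((h Q ha).2 (hker s h0))

variable {F' : Type*} [Field F'] [Algebra S' F']

/-- `v(x) = k` gives a nonzero reduction of `x π ^ (-k)`. -/
theorem exists_redF_of_vEq (hker : ∀ x, ρ x = 0 → x ∈ Q) {π' : S'} (hπ' : algebraMap S' F' π' ≠ 0)
    {k : ℤ} {x : F'} (h : VEq (up pb Q a ha) π' k x) :
    ∃ r : L, r ≠ 0 ∧ RedF (rho' pb ρ hρ a ha) (x * algebraMap S' F' π' ^ (-k)) r := by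
  obtain ⟨s, o, hs, ho, e⟩ := h
  refine ⟨_, div_ne_zero (rho'_ne_zero hρ ha hker ho) (rho'_ne_zero hρ ha hker hs),
    s, o, rho'_ne_zero hρ ha hker hs, ?_, rfl⟩
  rw [← mul_assoc, e, zpow_neg]
  have := zpow_ne_zero k hπ'
  field_simp

end Rho

end Fermat.Agent.S44.Const
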