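import Fermat.Agent.S44.Inst.Pair
import Fermat.Agent.S44.Const.GlueX
import Fermat.Agent.S44.Const.GlueA
import Fermat.Agent.S44.Const.Glue.G2
import Fermat.Agent.S44.Const.MainA
import Fermat.Agent.S44.Const.Places.Main
import Fermat.Agent.S44.Cusp.Main

/-!
# S44 / Const / MainB : the assembly of `Const M p hp`  (shadow of `Const/Main.lean`)
-/

set_option autoImplicit false
set_option linter.unusedSectionVars false
set_option linter.style.haveILetI false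

open AlgebraicCurve ModularCurve
open scoped IntermediateField

namespace Fermat.Agent.S44.Const

open Fermat.Agent.ES Fermat.Agent.SS Fermat.Agent.SS.GM2 Fermat.Agent.S33
open Fermat.Agent.Crux.G
open Fermat.Agent.Crux (A0)
open Fermat.Agent.Crux.GM (castS)
open Fermat.Agent.S44.Cover (LL gact bc)
open Fermat.Agent.S44.PL (r0 kι lam)

/-- (G3) `galKum` ⟹ `gact`. -/
theorem MainB_gact {N p : ℕ} (g : GQ) (f u : Dm N p) (n : ℕ)
    (h : galKum N p g (Kum.mk f) = Kum.mk f + n • Kum.mk u) :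
    ∃ k : FF N, gact g (((f : (FF N)ˣ) : FF N) : LL)
      = (((f : (FF N)ˣ) : FF N) : LL) * (((u : (FF N)ˣ) : FF N) : LL) ^ n * (k : LL) ^ p := by
  rw [galKum_mk, ← Kum.mk_pow, ← Kum.mk_mul, Kum.mk_eq_mk_iff] at h
  obtain ⟨k, hk⟩ := h
  refine ⟨(k : FF N), ?_⟩
  have hf0 : ((f : (FF N)ˣ) : FF N) ≠ 0 := (f : (FF N)ˣ).ne_zero
  have hu0 : ((u : (FF N)ˣ) : FF N) ≠ 0 := (u : (FF N)ˣ).ne_zero
  have h2 : (k : FF N) ^ p = galF N g ((f : (FF N)ˣ) : FF N)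
      * (((f : (FF N)ˣ) : FF N) * ((u : (FF N)ˣ) : FF N) ^ n)⁻¹ := by
    have := congrArg (fun u : (FF N)ˣ => (u : FF N)) hk
    simpa using this
  have h3 : galF N g ((f : (FF N)ˣ) : FF N)
      = ((f : (FF N)ˣ) : FF N) * ((u : (FF N)ˣ) : FF N) ^ n * (k : FF N) ^ p := by
    rw [h2]
    have := pow_ne_zero n hu0
    field_simp
  exact congrArg (fun x : FF N => (x : LL)) h3

/-- rescaling of `t₀` by a constant in `∑ e_i t₀^i`. -/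
theorem MainB_sum_scale {N : ℕ} (K₀ : IntermediateField ℚ Qb) (p : ℕ) (e : ℕ → FF N)
    (t₀ : LaurentSeries K₀) (γ : K₀) (hγ : γ ≠ 0) :
    ∑ i ∈ Finset.range p, ((e i * algebraMap Qb (FF N) (((γ : Qb) ^ i)⁻¹) : FF N) : LL)
        * (bc K₀ (t₀ * HahnSeries.C γ)) ^ i
      = ∑ i ∈ Finset.range p, (e i : LL) * (bc K₀ t₀) ^ i := by
  refine Finset.sum_congr rfl fun i _ => ?_
  have hγQ : (γ : Qb) ≠ 0 := fun h => hγ (Subtype.ext h)
  have h1 : ((e i * algebraMap Qb (FF N) (((γ : Qb) ^ i)⁻¹) : FF N) : LL)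
      = (e i : LL) * HahnSeries.C (((γ : Qb) ^ i)⁻¹) := by
    rw [← Cover.coe_algebraMap_FF (N := N)]
    rfl
  rw [h1, map_mul, Cover.bc_C, mul_pow]
  have h2 : (HahnSeries.C (((γ : Qb) ^ i)⁻¹) : LL) * (HahnSeries.C (γ : Qb)) ^ i = 1 := by
    rw [← map_pow, ← map_mul, inv_mul_cancel₀ (pow_ne_zero i hγQ), map_one]
  calc (e i : LL) * HahnSeries.C (((γ : Qb) ^ i)⁻¹) * ((bc K₀ t₀) ^ i * (HahnSeries.C (γ : Qb)) ^ i)
      = (e i : LL) * (bc K₀ t₀) ^ i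
          * (HahnSeries.C (((γ : Qb) ^ i)⁻¹) * (HahnSeries.C (γ : Qb)) ^ i) := by ring
    _ = _ := by rw [h2, mul_one]

theorem MainB_not_dvd {p : ℕ} (hp : p.Prime) (hp5 : 5 ≤ p) :
    ¬ (p : ℤ) ∣ ((12 * (p - 1) : ℕ) : ℤ) := by
  rw [Int.natCast_dvd_natCast]
  intro h
  rcases (Nat.Prime.dvd_mul hp).1 h with h | h
  · have h1 : p ≤ 12 := Nat.le_of_dvd (by norm_num) h
    interval_cases p
    all_goals first | exact absurd h (by decide) | exact absurd hp (by norm_num)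
  · have h1 : p ≤ p - 1 := Nat.le_of_dvd (by omega) h
    omega

variable {M p : ℕ} [NeZero M] [NeZero p]

set_option maxHeartbeats 1600000 in
theorem const' (hp : p.Prime) (hp5 : 5 ≤ p) (hpM : ¬ p ∣ M) : Fermat.Agent.S44.Const M p hp := by
  intro A hA w hw ζ hζ S a y₀ y hpair
  obtain ⟨K₀, iN, iD, iFin, ζ₀, hζK, hζ₀, hirr, hG, hI1, hstab, F, E, iF, iAF, iE, iE0, iAE, iEF,
    iT, iFD, Φ, w', X, u, W, t₀, C, hww, hu, hW, hnp, hlc, ht₀, ht₀lc, Y₁, η, ξ', ξ, g₁, g₂, g₁',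
    g₂', hY₁, hYW, hξ', hco, hη, hrel, hξ, hg₁, hg₂, -, -, hr₁, hr₂, -, -⟩ :=
    Inst.of_pair hp hp5 hpM hA hζ hpair
  obtain ⟨f, hfy, hflc, hford⟩ := Inst.exists_rep hp y
  obtain ⟨b, hb⟩ := exists_b K₀ hG
  have hb' : ∀ g : GQ, (∀ x ∈ K₀, g x = x) → ∃ k : FF (M * p),
      gact g (((f : (FF (M * p))ˣ) : FF (M * p)) : LL)
        = (((f : (FF (M * p))ˣ) : FF (M * p)) : LL) * (bc K₀ (Φ W)) ^ b g * (k : LL) ^ p := by
    intro g hg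
    rw [hW]
    exact MainB_gact g f u (b g) (by rw [hfy, hu]; exact hb g hg)
  have hζK' : IsPrimitiveRoot ((ζ₀ : K₀)) p :=
    hζ₀.map_of_injective (f := (A0 K₀ A).subtype) Subtype.val_injective
  obtain ⟨aa, cc, β, ϖ, e, haa, hcc, hβ, hϖβ, hϖg, he0, hf', hτ⟩ :=
    Cover.cover_main hp K₀ (ζ₀ : K₀) hζK' (Φ W) t₀ ((C.S.hΦF _).2 ⟨W, rfl⟩) ht₀ hnp
      ((f : (FF (M * p))ˣ) : FF (M * p)) hflc hford b hb'
  have hϖ0 : ϖ ≠ 0 := by
    rintro rfl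
    rw [zero_pow hp.ne_zero] at hϖβ
    exact hβ (Subtype.ext hϖβ.symm)
  refine ⟨ϖ, hϖ0, ?_, ?_⟩
  · refine partA hp hζ.pow_eq_one hpair.ne K₀ hI1 b hb ϖ ?_
    intro g hg
    have := hϖg g hg
    rwa [show (((ζ₀ : K₀) : K₀) : Qb) = ζ from hζK] at this
  intro hval
  obtain ⟨εβ, nβ, hεβ, hβe⟩ := exists_unit_zpow_of_valZ (π := ζ₀ - 1) hζK rfl hirr.ne_zero hϖ0 hval
    hϖβ
  refine ⟨f, ((12 * (p - 1) : ℕ) : ℤ), ?_⟩
  -- the `F`-level non-`p`-th-power statement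
  have hnpF : ∀ h : F, h ^ p ≠ W := by
    intro h hh
    have hm : Φ h ∈ modularFunctionFieldFullC K₀ (M * p) := (C.S.hΦF _).2 ⟨h, rfl⟩
    refine hnp ⟨bc K₀ (Φ h), Crux.coeffMap_mem_bar K₀ (M * p) hm⟩ ?_
    show (bc K₀ (Φ h)) ^ p = _
    rw [← map_pow, ← map_pow, hh]
  -- `InvK` for `f'`
  have hfd0 : FiniteDimensional Qb⟮S24.jN (M * p)⟯ (FF (M * p)) := S24.finiteDimensional_FN (M * p)
  have hfd : FiniteDimensional Qb⟮XF M p⟯ (FF (M * p)) :=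
    S24.FF.finiteDimensional_of_transcendental Qb (S24.jN (M * p)) (transcendental_XF M p)
  have hXm : bc K₀ (castS K₀ (Xh M p)) = ((XF M p : FF (M * p)) : LL) := by
    show coeffMap (algebraMap K₀ Qb) (castS K₀ (Xh M p)) = _
    rw [Crux.GM.coeffMap_castS]
    rfl
  have htu : (bc K₀ t₀) ^ p = (((u : (FF (M * p))ˣ) : FF (M * p)) : LL) := by
    rw [← map_pow, ht₀, hW]
  have hWu : ∀ b : FF (M * p), b ^ p ≠ ((u : (FF (M * p))ˣ) : FF (M * p)) := by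
    intro b hb
    refine hnp b ?_
    rw [hW, ← hb]
    rfl
  obtain ⟨s, AA, BB, hAA, hBB, hU, hV, hUV⟩ := Cover.invK_cover hp (castS K₀ (Xh M p)) (XF M p) hXm
    t₀ ((u : (FF (M * p))ˣ) : FF (M * p)) htu hWu ((f : (FF (M * p))ˣ) : FF (M * p))
    (f : (FF (M * p))ˣ).ne_zero (fun P => f.2 P) (∑ i ∈ Finset.range p, aa i * t₀ ^ i)
    (∑ i ∈ Finset.range p, (e i : LL) * (bc K₀ t₀) ^ i)
    (Cover.sum_mem_adjoin _ _ _ (IntermediateField.mem_adjoin_simple_self (FF (M * p)) _) p) he0 hf'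
  obtain ⟨xb, Xb, hxb, hXb⟩ := exists_xb C
  have hf0 : (((f : (FF (M * p))ˣ) : FF (M * p)) : LL) ≠ 0 :=
    fun h0 => (f : (FF (M * p))ˣ).ne_zero (Subtype.ext h0)
  have h0 : ∑ i ∈ Finset.range p, aa i * t₀ ^ i ≠ 0 := by
    intro h
    rw [h, map_zero] at hf'
    exact mul_ne_zero hf0 (pow_ne_zero p he0) hf'.symm
  obtain ⟨a', c', φ, hφ0, hred, hncv⟩ := absX' C hp5 ht₀ hnpF hY₁ hYW hξ' hco hη hrel hξ hg₁ hg₂ hr₁
    hr₂ aa cc haa hcc h0 hεβ (nβ := nβ) (by rw [← hβe]; exact hτ) AA BB hAA hBB hU hV hUV xb Xb hxb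
    hXb
  obtain ⟨-, -, -, -, -, -, -, -, n, tb, htb⟩ := exists_Y C ht₀ hY₁ hYW hξ' hco hη hrel hnpF
  have hπK : algebraMap (A0 K₀ A) K₀ (ζ₀ - 1) ≠ 0 := by
    rw [Ne, map_eq_zero_iff _ (IsFractionRing.injective (A0 K₀ A) K₀)]
    exact hirr.ne_zero
  have hγ : algebraMap (A0 K₀ A) K₀ (ζ₀ - 1) ^ n ≠ 0 := zpow_ne_zero n hπK
  refine ⟨-c', hfy, MainB_not_dvd hp hp5, Cusp.cuspP M p hp hp5 hpM A hA f, ?_⟩
  refine Places.nc_sum hp hpM hA (Places.compat_A0 A K₀) ((f : (FF (M * p))ˣ) : FF (M * p))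
    (fun i => e i * algebraMap Qb (FF (M * p))
      ((((algebraMap (A0 K₀ A) K₀ (ζ₀ - 1) ^ n : K₀) : Qb) ^ i)⁻¹)) htb ?_
    (f' := ∑ i ∈ Finset.range p, aa i * t₀ ^ i) ?_
    (γ := algebraMap (A0 K₀ A) K₀ (ζ₀ - 1) ^ (-a')) (zpow_ne_zero _ hπK) φ xb Xb hφ0 hxb hXb ?_
    (12 * (p - 1)) (-c') ?_
  · rw [MainB_sum_scale K₀ p e t₀ _ hγ]
    exact he0
  · rw [MainB_sum_scale K₀ p e t₀ _ hγ]
    exact hf'
  · rw [map_zpow₀]
    exact hred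
  · intro V hV
    rw [neg_neg]
    exact hncv V hV

end Fermat.Agent.S44.Const
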