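import Fermat.Agent.S44.Loc.EtaleNormal
import Fermat.Agent.S44.Loc.At2

/-!
# S44 / Const / Abs : the `Loc`-level part of CONST  (blueprint #1785 (C),(D); architecture post 00:55Z)

`S` an integrally closed noetherian domain (the chart ring), `S' = S[z]` (`pb : PowerBasis S S'`) the cover ring, `F ⊆ F'` the fraction fields.
`Q1`, `Q2` the two components, `π` the uniformiser, index set `Fin p`, `c i = i`.

* `etData`       : `EtData` from the factorisation of `minpoly S z` mod `Q` and `π ∣ p`;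
* `locPrin_up`   : `up Q (g + i)` is locally principal;
* `node_case`, `smooth_case` : `rcAt'`, `locSmoothAt'` on `S'` at `up n (g1 + i0)`;
* `X_notMem_of_smooth` : the modular unit is a unit at the smooth points;
* `vEq_shift`, `dvd_sub_of_tau` : (B3), the deck transformation permutes the `up Q (g + i)`.
-/

set_option autoImplicit false
set_option linter.unusedSectionVars false
set_option linter.style.haveILetI false

open Polynomial

namespace Fermat.Agent.S44.Const

open Fermat.Agent.S44.Loc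

variable {S S' : Type*} [CommRing S] [CommRing S'] [Algebra S S'] {pb : PowerBasis S S'}

/-- the index function `c i = i`. -/
def cI (S : Type*) [CommRing S] (p : ℕ) : Fin p → S := fun i => ((i : ℕ) : S)

/-- `i - j ∉ n` for `i ≠ j` in `Fin p`, when `p ∈ n`. -/
theorem cI_sep {p : ℕ} (hp : p.Prime) {n : Ideal S} (hn : n ≠ ⊤) (hpn : (p : S) ∈ n) (i j : Fin p)
    (hij : i ≠ j) : cI S p i - cI S p j ∉ n := by
  intro hmem
  have hd : ¬ (p : ℤ) ∣ ((i : ℕ) : ℤ) - ((j : ℕ) : ℤ) := by
    intro hdvd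
    apply hij
    have h1 := i.2
    have h2 := j.2
    have h3 : ((i : ℕ) : ℤ) - ((j : ℕ) : ℤ) = 0 := by
      apply Int.eq_zero_of_abs_lt_dvd hdvd
      rw [abs_lt]
      constructor <;> omega
    exact Fin.ext (by omega)
  have hcop : IsCoprime (((i : ℕ) : ℤ) - ((j : ℕ) : ℤ)) (p : ℤ) :=
    ((Nat.prime_iff_prime_int.1 hp).coprime_iff_not_dvd.2 hd).symm
  obtain ⟨a, b, hab⟩ := hcop
  apply hn
  rw [Ideal.eq_top_iff_one]
  have h1 : (1 : S) = (a : S) * (cI S p i - cI S p j) + (b : S) * (p : S) := by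
    have := congrArg (Int.cast : ℤ → S) hab
    push_cast at this
    rw [cI, cI, this]
  rw [h1]
  exact n.add_mem (n.mul_mem_left _ hmem) (n.mul_mem_left _ hpn)

/-- `EtData` from the factorisation. -/
theorem etData {p : ℕ} (hp : p.Prime) {n Q : Ideal S} {g : S} (hn : n ≠ ⊤) (hpn : (p : S) ∈ n)
    (fac : (minpoly S pb.gen).map (Ideal.Quotient.mk Q)
      = ∏ i : Fin p, (X - C (Ideal.Quotient.mk Q (g + cI S p i)))) :
    EtData pb n Q g (cI S p) :=
  ⟨fac, cI_sep hp hn hpn⟩

section LocPrinUp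

variable {I : Type*} [Fintype I] [DecidableEq I] {c : I → S} {Q : Ideal S} {π g : S}

/-- `up Q (g + c i0)` is locally generated by `π`. -/
theorem locPrin_up [IsDomain S] [IsDomain S'] (hP : LocPrin Q π) (h1 : EtData pb Q Q g c) (i0 : I) :
    LocPrin (up pb Q (g + c i0) (h1.eval_mem i0)) (algebraMap S S' π) where
  prime := up_isPrime _ hP.prime
  ne_zero := by
    intro h0
    have hinj : Function.Injective (algebraMap S S') := pb.basis.algebraMap_injective
    exact hP.ne_zero (hinj (by rw [h0, map_zero]))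
  mem := (algebraMap_mem_up_iff _).2 hP.mem
  gen := by
    intro x hx
    have hn : Q.IsPrime := hP.prime
    obtain ⟨σ, hσ, hσ'⟩ := h1.exists_mul_mem_map hn le_rfl i0 (h1.eval_mem i0) (h1.eval_mem i0)
    obtain ⟨s, hs, hd⟩ := EtC_dvd_of_coord (π := π) pb hn (σ * x) fun k =>
      hP.gen _ ((mem_map_iff_repr pb Q).1 (hσ' x hx) k)
    have hP' := up_isPrime (pb := pb) (h1.eval_mem i0) hn
    refine ⟨algebraMap S S' s * σ, ?_, ?_⟩
    · intro hm
      rcases hP'.mem_or_mem hm with h3 | h3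
      · exact hs ((algebraMap_mem_up_iff _).1 h3)
      · exact hσ h3
    · rwa [mul_assoc]

end LocPrinUp

/-- `up` only depends on `a` modulo `Q`. -/
theorem up_congr {Q : Ideal S} {a a' : S} (ha : (minpoly S pb.gen).eval a ∈ Q)
    (ha' : (minpoly S pb.gen).eval a' ∈ Q) (h : a - a' ∈ Q) : up pb Q a ha = up pb Q a' ha' := by
  have : ev pb Q a ha = ev pb Q a' ha' := by
    apply pb.algHom_ext
    rw [ev_gen, ev_gen]
    exact (Ideal.Quotient.eq).2 h
  rw [up, up, this]

/-- `InvKAt` is insensitive to powers of `π`. -/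
theorem invKAt_mul_pi_zpow {F : Type*} [Field F] [Algebra S F] {n : Ideal S} {π : S} {m : ℕ} {W : F}
    (hπ : algebraMap S F π ≠ 0) (h : InvKAt n π m W) (j : ℤ) :
    InvKAt n π m (W * algebraMap S F π ^ j) := by
  have key : ∀ (z : F) (j : ℤ), InRAt n π z → InRAt n π (z * algebraMap S F π ^ j) := by
    rintro z j ⟨s, i, o, hs, e⟩
    obtain ⟨k, rfl | rfl⟩ := j.eq_nat_or_neg
    · refine ⟨s, i, o * π ^ k, hs, ?_⟩
      rw [map_mul, ← e, zpow_natCast, map_pow]; ring
    · refine ⟨s, i + k, o, hs, ?_⟩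
      rw [← e, zpow_neg, zpow_natCast, pow_add]
      field_simp
  obtain ⟨r, a, b, ha, hb, hab⟩ := h
  refine ⟨r, a, b, fun i => ?_, fun i => ?_, hab⟩
  · rw [← mul_assoc]; exact key _ j (ha i)
  · rw [mul_inv, ← zpow_neg, ← mul_assoc]; exact key _ (-j) (hb i)

section Cases

variable [IsDomain S] [IsNoetherianRing S] [IsIntegrallyClosed S] [IsDomain S']
  {F F' : Type*} [Field F] [Field F'] [Algebra S F] [IsFractionRing S F] [Algebra S' F']
  [IsFractionRing S' F'] [Algebra S F'] [Algebra F F'] [IsScalarTower S F F'] [IsScalarTower S S' F']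
  [Algebra.IsSeparable F F']
  {I : Type*} [Fintype I] [DecidableEq I] {c : I → S} {n Q1 Q2 Q : Ideal S} {π g1 g2 g : S}

/-- **the node case**: (RC) on the cover ring. -/
theorem node_case (Bp : PowerBasis F F') (hB : Bp.gen = algebraMap S' F' pb.gen)
    (h : NodeAt n π Q1 Q2) (h1 : EtData pb n Q1 g1 c) (h2 : EtData pb n Q2 g2 c)
    (hder : ∃ (w : S') (j : ℕ) (s : S), s ∉ n ∧
      aeval pb.gen (derivative (minpoly S pb.gen)) * w = algebraMap S S' (π ^ j * s))
    {m : ℕ} (hm : 0 < m) {X : S} {T : ℕ} (hX : XData F π Q1 Q2 X T) (hmT : Nat.Coprime m T)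
    (i0 : I) {u : F'} {a : ℤ} {b : I → ℤ}
    (hu1 : VEq (up pb Q1 (g1 + c i0) (h1.eval_mem i0)) (algebraMap S S' π) a u)
    (hu2 : ∀ j, VEq (up pb Q2 (g2 + c j) (h2.eval_mem j)) (algebraMap S S' π) (b j) u)
    (hinv : InvKAt (up pb n (g1 + c i0) (h.le1 (h1.eval_mem i0))) (algebraMap S S' π) m u) :
    ∃ (j0 : I) (y : F') (s t : S'),
      VEq (up pb Q1 (g1 + c i0) (h1.eval_mem i0)) (algebraMap S S' π) 0 y ∧
      s ∉ up pb n (g1 + c i0) (h.le1 (h1.eval_mem i0)) ∧
      t ∉ up pb n (g1 + c i0) (h.le1 (h1.eval_mem i0)) ∧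
      algebraMap S' F' s * (y ^ m * (u ^ T * algebraMap S' F' (algebraMap S S' X) ^ (a - b j0) *
        algebraMap S' F' (algebraMap S S' π) ^ (-(T * a)))) = algebraMap S' F' t := by
  haveI : Module.Finite S S' := pb.finite
  haveI : IsNoetherianRing S' := IsNoetherianRing.of_finite S S'
  obtain ⟨j0, hj0⟩ := exists_index h1 h2 h.max.isPrime h.le1 h.le2 i0
  have hnode := nodeAt_up (pb := pb) h h1 h2 hj0
  have hnorm := normalAt_up pb Bp hB h.max.isPrime (h.le1 (h1.eval_mem i0)) hder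
  have hX' := (XData.up (F' := F') (pb := pb) (h1.eval_mem i0) (h2.eval_mem j0) hX).at
    hnode.max.ne_top
  obtain ⟨y, s, t, hy1, -, hs, ht, e⟩ := rcAt' hnode hnorm hm hX' hmT hu1 (hu2 j0) hinv
  exact ⟨j0, y, s, t, hy1, hs, ht, e⟩

/-- **the smooth case**. -/
theorem smooth_case (Bp : PowerBasis F F') (hB : Bp.gen = algebraMap S' F' pb.gen)
    (h : SmoothAt n π Q) (h1 : EtData pb n Q g c)
    (hder : ∃ (w : S') (j : ℕ) (s : S), s ∉ n ∧
      aeval pb.gen (derivative (minpoly S pb.gen)) * w = algebraMap S S' (π ^ j * s))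
    {m : ℕ} (hm : 0 < m) (i0 : I) {u : F'} {a : ℤ}
    (hP : LocPrin (up pb Q (g + c i0) (h1.eval_mem i0)) (algebraMap S S' π))
    (hu : VEq (up pb Q (g + c i0) (h1.eval_mem i0)) (algebraMap S S' π) a u)
    (hinv : InvKAt (up pb n (g + c i0) (h.le (h1.eval_mem i0))) (algebraMap S S' π) m u) :
    ∃ (y : F') (s t : S'),
      VEq (up pb Q (g + c i0) (h1.eval_mem i0)) (algebraMap S S' π) 0 y ∧
      s ∉ up pb n (g + c i0) (h.le (h1.eval_mem i0)) ∧
      t ∉ up pb n (g + c i0) (h.le (h1.eval_mem i0)) ∧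
      algebraMap S' F' s * (y ^ m * (u * algebraMap S' F' (algebraMap S S' π) ^ (-a)))
        = algebraMap S' F' t := by
  haveI : Module.Finite S S' := pb.finite
  haveI : IsNoetherianRing S' := IsNoetherianRing.of_finite S S'
  have hsm := smoothAt_up (pb := pb) (i0 := i0) h h1
  have hnorm := normalAt_up pb Bp hB h.max.isPrime (h.le (h1.eval_mem i0)) hder
  have hW : VEq (up pb Q (g + c i0) (h1.eval_mem i0)) (algebraMap S S' π) 0
      (u * algebraMap S' F' (algebraMap S S' π) ^ (-a)) := by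
    have := hu.mul hP (vEq_pi_zpow hP (-a))
    rwa [add_neg_cancel] at this
  exact locSmoothAt' hsm hnorm hm hW (invKAt_mul_pi_zpow (algebraMap_pi_ne_zero hP) hinv (-a))

end Cases

/-- the modular unit is a unit at the smooth points of the first component. -/
theorem X_notMem_of_smooth [IsDomain S] {n Q : Ideal S} {π : S} (h : SmoothAt n π Q) {X : S}
    (hX : X ∉ Q) : ∀ (T : ℕ) (U e : S), e ∉ n → X * U = π ^ T * e → X ∉ n := by
  have hn : n.IsPrime := h.max.isPrime
  intro T
  induction T with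
  | zero =>
    intro U e he hXU hXn
    apply he
    rw [pow_zero, one_mul] at hXU
    rw [← hXU]
    exact n.mul_mem_right _ hXn
  | succ T ih =>
    intro U e he hXU
    have hU : U ∈ Q := by
      have h1 : X * U ∈ Q := by
        rw [hXU, pow_succ, mul_assoc]
        exact Q.mul_mem_left _ (Q.mul_mem_right _ h.mem)
      exact (h.prime.mem_or_mem h1).resolve_left hX
    obtain ⟨s, hs, U', hU'⟩ := h.gen U hU
    refine ih U' (s * e) (fun hm => (hn.mem_or_mem hm).elim hs he) ?_
    apply mul_left_cancel₀ h.ne_zero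
    calc π * (X * U') = X * (π * U') := by ring
      _ = X * (s * U) := by rw [hU']
      _ = s * (X * U) := by ring
      _ = π * (π ^ T * (s * e)) := by rw [hXU]; ring

end Fermat.Agent.S44.Const
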