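import Fermat.Agent.S44.Const.CovK
import Fermat.Agent.S44.Bridge.Ctx

/-!
# S44 / Const / AbsX : `Const.chart0K` in the setting `PL.Ctx` (layer 3, chart `X`).

`S = SM A F` (chart `X`), the cover `S' = S[z]`, `(1 + π z)^p = 1 + π^p ξ`; `t₀ = (1 + π z) / Y`.
`f' = ∑_{i<p} a_i t₀^i`.
-/

set_option autoImplicit false
set_option linter.unusedSectionVars false
set_option linter.style.haveILetI false

open Polynomial ModularCurve

namespace Fermat.Agent.S44.Const

open Fermat.Agent.Crux.G Fermat.Agent.SS.G2 Fermat.Agent.S44.Loc Fermat.Agent.SS.GM2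
open Fermat.Agent.S44.Bridge
open Fermat.Agent.S28 (V J evAt)
open Fermat.Agent.Crux.GM (castS)

noncomputable section

/-! ### sums `∑_{i<p} a_i t^i` in a tower -/

section Sum

variable {F F' LL : Type*} [Field F] [Field F'] [Algebra F F'] [Field LL]

/-- `∑_{i<p} a_i t^i`. -/
def sumT (p : ℕ) (t : F') (a : ℕ → F) : F' :=
  ∑ i ∈ Finset.range p, algebraMap F F' (a i) * t ^ i

theorem map_sumT (p : ℕ) (t : F') (a : ℕ → F) (Φ : F →+* LL) (Ψ : F' →+* LL)
    (hΨ : ∀ f, Ψ (algebraMap F F' f) = Φ f) :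
    Ψ (sumT p t a) = ∑ i ∈ Finset.range p, Φ (a i) * Ψ t ^ i := by
  rw [sumT, map_sum]
  refine Finset.sum_congr rfl fun i _ => ?_
  rw [map_mul, map_pow, hΨ]

theorem algHom_sumT (p : ℕ) (t : F') (a : ℕ → F) (τ : F' →ₐ[F] F') :
    τ (sumT p t a) = sumT p (τ t) a := by
  rw [sumT, sumT, map_sum]
  refine Finset.sum_congr rfl fun i _ => ?_
  rw [map_mul, map_pow, τ.commutes]

end Sum

variable {M p : ℕ} [NeZero M] [NeZero p]
variable {A K k : Type} [CommRing A] [IsDomain A] [IsDiscreteValuationRing A] [Field K]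
  [CharZero K] [Algebra A K] [IsFractionRing A K] [Field k] [Finite k]
  {r : A →+* k} {π : A}
variable {F : Type} [Field F] [Algebra A F] {Φ : F →+* LaurentSeries K} {w : F →+* F}
variable {E : Type} [Field E] [CharZero E] [Algebra A E] [Algebra E F] [IsScalarTower A E F]
  [FiniteDimensional E F]
variable {X : E} {ζ : A}

/-- **layer 3, chart `X`.** -/
theorem absX (C : PL.Ctx M p r π Φ w X ζ) (hp5 : 5 ≤ p) {ξ g₁ g₂ Y : F}
    (hξ : IntX A X ξ) (hg₁ : IntX A X g₁) (hg₂ : IntX A X g₂)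
    (hr₁ : RedK r (Φ (g₁ ^ p - g₁ - ξ)) 0) (hr₂ : RedK r (Φ (w (g₂ ^ p - g₂ - ξ))) 0)
    (hnp : ∀ h : F, h ^ p ≠ 1 + algebraMap A F π ^ p * ξ)
    {t₀ z : LaurentSeries K} {b : LaurentSeries k} (hY : Y ≠ 0)
    (ht₀ : Φ Y * t₀ = 1 + HahnSeries.C (algebraMap A K π) * z)
    (hz : (1 + HahnSeries.C (algebraMap A K π) * z) ^ p
      = 1 + HahnSeries.C (algebraMap A K π) ^ p * Φ ξ)
    (hb : RedK r z b)
    (a c : ℕ → F) (h0 : ∑ i ∈ Finset.range p, Φ (a i) * t₀ ^ i ≠ 0)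
    {εβ : A} (hεβ : IsUnit εβ) {nβ : ℤ}
    (hτ : ∑ i ∈ Finset.range p, Φ (a i) * (HahnSeries.C (algebraMap A K ζ) * t₀) ^ i
      = HahnSeries.C (algebraMap A K εβ * algebraMap A K π ^ ((p : ℤ) * nβ))
        * (∑ i ∈ Finset.range p, Φ (a i) * t₀ ^ i)
        * (∑ i ∈ Finset.range p, Φ (c i) * t₀ ^ i) ^ p)
    {n : ℕ} (uu vv : Fin n → ℕ → F)
    (hU : ∀ j, (evAt (castS K (Xh M p))).IsIntegralElem
      ((∑ i ∈ Finset.range p, Φ (uu j i) * t₀ ^ i) ^ p
        * (∑ i ∈ Finset.range p, Φ (a i) * t₀ ^ i)))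
    (hV : ∀ j, (evAt (castS K (Xh M p))).IsIntegralElem
      ((∑ i ∈ Finset.range p, Φ (vv j i) * t₀ ^ i) ^ p
        * (∑ i ∈ Finset.range p, Φ (a i) * t₀ ^ i)⁻¹))
    (hUV : ∑ j, (∑ i ∈ Finset.range p, Φ (uu j i) * t₀ ^ i)
      * (∑ i ∈ Finset.range p, Φ (vv j i) * t₀ ^ i) = 1)
    (xb Xb : modularFunctionFieldFullC k M)
    (hxb : (xb : LaurentSeries k) = castS k (Xh M p))
    (hXb : (Xb : LaurentSeries k) = XD.XD k p) :
    ∃ (a' c' : ℤ) (φ : modularFunctionFieldFullC k M), φ ≠ 0 ∧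
      RedK r ((∑ i ∈ Finset.range p, Φ (a i) * t₀ ^ i)
        * (HahnSeries.C (algebraMap A K π) : LaurentSeries K) ^ (-a')) (φ : LaurentSeries k) ∧
      ∀ W : ValuationSubring (modularFunctionFieldFullC k M), xb ∈ W →
        ∃ y : modularFunctionFieldFullC k M, y ≠ 0 ∧
          IsUnitIn W (y ^ p * (φ ^ (12 * (p - 1)) * Xb ^ c')) := by
  classical
  letI := algL (A := A) F X
  obtain ⟨i1, i2, i3⟩ := chart_inst (F := F) C.hXt C.hgen
  haveI := i1
  haveI := i2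
  haveI := i3
  haveI : Fact p.Prime := ⟨C.hp⟩
  haveI hchar : CharP k p := by
    have : (p : k) = 0 := by rw [← map_natCast r, C.S.hrℓ]
    exact (CharP.charP_iff_prime_eq_zero C.hp).mpr this
  haveI : CharZero F := charZero_of_injective_algebraMap (algebraMap E F).injective
  obtain ⟨B, G, -⟩ := exists_good0 C
  -- constants
  have hcoe : ∀ s : SM A F, algebraMap (SM A F) F s = (s : F) := fun _ => rfl
  have hΦC : ∀ e : A, Φ ((algebraMap A[X] (SM A F) (Polynomial.C e) : SM A F) : F)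
      = HahnSeries.C (algebraMap A K e) := by
    intro e
    rw [coe_algebraMap_C, C.S.hΦA]
  have hinjA : Function.Injective
      ((algebraMap A[X] (SM A F)).comp (Polynomial.C : A →+* A[X])) := by
    intro e e' hee
    have h1 := congrArg (fun s : SM A F => Φ (s : F)) hee
    simp only [RingHom.comp_apply] at h1
    rw [hΦC, hΦC] at h1
    exact IsFractionRing.injective A K (HahnSeries.C_injective h1)
  have hζS : IsPrimitiveRoot (algebraMap A[X] (SM A F) (Polynomial.C ζ)) p :=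
    C.hζ.map_of_injective hinjA
  obtain ⟨s₀, G₀, H, D⟩ := exists_gData C.hp C.hp2 hζS
  have hϖ : algebraMap A[X] (SM A F) (Polynomial.C ζ) - 1 = pi π F := by
    rw [pi, C.hπ, C_sub, map_sub, C_1, map_one]
  rw [hϖ] at D
  have hΦϖ : Φ ((pi π F : SM A F) : F) = HahnSeries.C (algebraMap A K π) := hΦC π
  let ξS : SM A F := ⟨ξ, hξ⟩
  let g1 : SM A F := ⟨g₁, hg₁⟩
  let g2 : SM A F := ⟨g₂, hg₂⟩
  have hπF : ((pi π F : SM A F) : F) = algebraMap A F π := coe_algebraMap_C X π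
  have hirr := D.irreducible ξS (F := F) (by
    intro h
    have := hnp h
    rw [map_add, map_one, map_mul, map_pow, hcoe, hcoe, hπF]
    exact this)
  have hCπ0 : (HahnSeries.C (algebraMap A K π) : LaurentSeries K) ≠ 0 := G.redData₁.C_ne_zero
  have hroot := D.root ξS (Φ.comp (algebraMap (SM A F) F)) (z := z) (by
    rw [RingHom.comp_apply, hcoe, hΦϖ]; exact hCπ0) (by
    rw [RingHom.comp_apply, RingHom.comp_apply, hcoe, hcoe, hΦϖ]; exact hz)
  obtain ⟨S', F', _, _, _, _, _, _, _, _, _, _, _, pb, Bp, Ψ, hmin, hB, hΨ, hΨz⟩ :=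
    exists_cover Φ (G₀ - Polynomial.C ξS) (D.monic_sub ξS) hirr z hroot
  have hΨS : ∀ s : SM A F, Ψ (algebraMap (SM A F) F' s) = Φ (s : F) := by
    intro s
    rw [IsScalarTower.algebraMap_apply (SM A F) F F', hΨ, hcoe]
  rw [hB] at hΨz
  -- the embedding
  let emb : modularFunctionFieldFullC k M →+* LaurentSeries k :=
    algebraMap (modularFunctionFieldFullC k M) (LaurentSeries k)
  have hemb : emb.comp G.rL = r₁ B := RingHom.ext fun _ => rfl
  have RD : RedData r π Φ (emb.comp G.rL) (pi π F) := by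
    rw [hemb]; exact G.redData₁
  obtain ⟨X₀, U, ε, hX, hXU, hε, -, hX₀⟩ := exists_XData C G
  -- the element `t`
  let t' : F' := (1 + algebraMap (SM A F) F' (pi π F) * algebraMap S' F' pb.gen)
    / algebraMap F F' Y
  have hΦY : Φ Y ≠ 0 := by rwa [Ne, map_eq_zero]
  have hΨt : Ψ t' = t₀ := by
    change Ψ ((1 + algebraMap (SM A F) F' (pi π F) * algebraMap S' F' pb.gen)
      / algebraMap F F' Y) = t₀
    rw [map_div₀, map_add, map_one, map_mul, hΨS, hΦϖ, hΨz, hΨ, ← ht₀]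
    field_simp
  have hΨsum : ∀ e : ℕ → F, Ψ (sumT p t' e) = ∑ i ∈ Finset.range p, Φ (e i) * t₀ ^ i := by
    intro e
    rw [map_sumT p t' e Φ Ψ hΨ, hΨt]
  have hu : sumT p t' a ≠ 0 := by
    intro h
    apply h0
    rw [← hΨsum, h, map_zero]
  have hκ : ∀ P : A[X], Ψ (algebraMap (SM A F) F' (algebraMap A[X] (SM A F) P))
      = evK A (castS K (Xh M p)) P := by
    intro P
    rw [hΨS, ← C.hX, ← C.S.comp_aeval]
    change Φ (algebraMap E F (aeval X P)) = Φ (aeval (algebraMap E F X) P)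
    rw [aeval_algebraMap_apply]
  have hτu : ∀ τF : F' →ₐ[F] F', τF (algebraMap S' F' pb.gen)
        = algebraMap S' F' (algebraMap (SM A F) S' (algebraMap A[X] (SM A F) (Polynomial.C ζ))
          * pb.gen + 1) →
      τF (sumT p t' a) = (algebraMap (SM A F) F' (algebraMap A[X] (SM A F) (Polynomial.C εβ))
        * algebraMap (SM A F) F' (pi π F) ^ ((p : ℤ) * nβ)) * sumT p t' a * sumT p t' c ^ p := by
    intro τF hτF
    apply Ψ.injective
    have hτS : ∀ s : SM A F, τF (algebraMap (SM A F) F' s) = algebraMap (SM A F) F' s := by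
      intro s
      rw [IsScalarTower.algebraMap_apply (SM A F) F F', τF.commutes]
    have hτt : τF t' = algebraMap (SM A F) F' (algebraMap A[X] (SM A F) (Polynomial.C ζ)) * t' := by
      change τF ((1 + algebraMap (SM A F) F' (pi π F) * algebraMap S' F' pb.gen)
        / algebraMap F F' Y) = _ * ((1 + algebraMap (SM A F) F' (pi π F) * algebraMap S' F' pb.gen)
        / algebraMap F F' Y)
      rw [map_div₀, map_add, map_one, map_mul, hτS, hτF, τF.commutes, map_add, map_mul, map_one,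
        ← IsScalarTower.algebraMap_apply (SM A F) S' F', ← hϖ, map_sub, map_one]
      ring
    rw [algHom_sumT, hτt, map_sumT p _ a Φ Ψ hΨ, map_mul Ψ, hΨS, hΦC, hΨt, hτ, map_mul Ψ,
      map_mul Ψ, map_mul Ψ, map_pow Ψ, hΨsum, hΨsum, map_zpow₀ Ψ, hΨS, hΨS, hΦC, hΦϖ,
      map_mul HahnSeries.C, map_zpow₀ HahnSeries.C]
  have hinv : ∃ (s : ℕ) (Aa Bb : Fin s → F'),
      (∀ l, ∃ j : ℕ, IsIntegral (SM A F)
        (algebraMap (SM A F) F' (pi π F) ^ j * (Aa l ^ p * sumT p t' a))) ∧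
      (∀ l, ∃ j : ℕ, IsIntegral (SM A F)
        (algebraMap (SM A F) F' (pi π F) ^ j * (Bb l ^ p * (sumT p t' a)⁻¹))) ∧
      ∑ l, Aa l * Bb l = 1 := by
    refine ⟨n, fun j => sumT p t' (uu j), fun j => sumT p t' (vv j), fun l => ?_, fun l => ?_, ?_⟩
    · exact exists_isIntegral_of_series C.irr Ψ (castS K (Xh M p)) (algebraMap A[X] (SM A F)) hκ _
        (by rw [map_mul, map_pow, hΨsum, hΨsum]; exact hU l)
    · exact exists_isIntegral_of_series C.irr Ψ (castS K (Xh M p)) (algebraMap A[X] (SM A F)) hκ _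
        (by rw [map_mul, map_pow, map_inv₀, hΨsum, hΨsum]; exact hV l)
    · apply Ψ.injective
      rw [map_sum, map_one, ← hUV]
      refine Finset.sum_congr rfl fun j _ => ?_
      rw [map_mul, hΨsum, hΨsum]
  obtain ⟨a', c', φ, hφ0, hφ, hW⟩ := chart0K (emb := emb) (ρL := G.rL) (g1 := g1) (g2 := g2)
    (u := sumT p t' a) (k1 := sumT p t' c)
    (εβ := algebraMap A[X] (SM A F) (Polynomial.C εβ)) (nβ := nβ)
    D hmin Bp hB RD Ψ hΨ (hΨz ▸ hb)
    (fun x hx => G.rL_eq_zero_iff.2 hx) (fun x hx => G.rL_eq_zero_iff.1 hx)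
    (locPrin₁_x C.hXt C.hgen G) (locPrin₂_x C.hXt C.hgen G)
    (G.mem_Q₁_iff.2 hr₁) (G.mem_Q₂_iff.2 hr₂) (tri_x C.hXt C.hgen G) hX (coprime_T C hp5) hXU hε
    hu ((hεβ.map Polynomial.C).map _) hτu hinv
  refine ⟨a', c', φ, hφ0, ?_, fun W hxW => ?_⟩
  · rw [← hΨsum]; exact hφ
  · have hx : G.rL (algebraMap A[X] (SM A F) Polynomial.X) = xb :=
      Subtype.ext (by rw [G.coe_rL_X, hxb])
    have hXr : G.rL X₀ = Xb := Subtype.ext (by rw [G.coe_rL, hX₀, hXb])
    rw [← hXr]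
    exact hW W (rL_mem_val' G W (by rw [hx]; exact hxW))

end

end Fermat.Agent.S44.Const
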