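import Fermat.Agent.S44.Const.Abs

/-!
# S44 / Const / Shift : (B3) the deck transformation permutes the primes `up Q (g + i)`.

`τ : S' →ₐ[S] S'`, `τ z = ζ z + 1`, `ζ - 1 ∈ Q`; `τF : F' →+* F'` its extension.  If `τF u = β u k1 ^ p` and `p ∣ v(β)` then all the
valuations of `u` at the `up Q (g + i)` are congruent modulo `p`.
-/

set_option autoImplicit false
set_option linter.unusedSectionVars false

open Polynomial

namespace Fermat.Agent.S44.Const

open Fermat.Agent.S44.Loc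

variable {S S' : Type*} [CommRing S] [CommRing S'] [Algebra S S'] {pb : PowerBasis S S'}

theorem mem_up_shift (τ : S' →ₐ[S] S') {Q : Ideal S} {a a' : S}
    (ha : (minpoly S pb.gen).eval a ∈ Q) (ha' : (minpoly S pb.gen).eval a' ∈ Q)
    (hgen : τ pb.gen - algebraMap S S' a' ∈ up pb Q a ha) (x : S') :
    τ x ∈ up pb Q a ha ↔ x ∈ up pb Q a' ha' := by
  have h : (ev pb Q a ha).comp τ = ev pb Q a' ha' := by
    apply pb.algHom_ext
    rw [AlgHom.comp_apply, ev_gen]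
    have h1 : ev pb Q a ha (τ pb.gen - algebraMap S S' a') = 0 := RingHom.mem_ker.1 hgen
    rw [map_sub, ev_algebraMap, sub_eq_zero] at h1
    exact h1
  rw [up, up, RingHom.mem_ker, RingHom.mem_ker, ← h]
  rfl

variable {F' : Type*} [Field F'] [Algebra S' F']

theorem vEq_shift (τ : S' →ₐ[S] S') (τF : F' →+* F')
    (hτ : ∀ x, τF (algebraMap S' F' x) = algebraMap S' F' (τ x)) {Q : Ideal S} {a a' π : S}
    (ha : (minpoly S pb.gen).eval a ∈ Q) (ha' : (minpoly S pb.gen).eval a' ∈ Q)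
    (hgen : τ pb.gen - algebraMap S S' a' ∈ up pb Q a ha) {k : ℤ} {x : F'}
    (h : VEq (up pb Q a' ha') (algebraMap S S' π) k x) :
    VEq (up pb Q a ha) (algebraMap S S' π) k (τF x) := by
  obtain ⟨s, o, hs, ho, e⟩ := h
  refine ⟨τ s, τ o, fun hm => hs ((mem_up_shift τ ha ha' hgen s).1 hm),
    fun hm => ho ((mem_up_shift τ ha ha' hgen o).1 hm), ?_⟩
  have h1 := congrArg τF e
  rw [map_mul, map_mul, map_zpow₀, hτ, hτ, hτ, τ.commutes] at h1
  exact h1

variable [IsDomain S'] [IsFractionRing S' F'] [IsNoetherianRing S']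

theorem dvd_sub_of_tau (τ : S' →ₐ[S] S') (τF : F' →+* F')
    (hτ : ∀ x, τF (algebraMap S' F' x) = algebraMap S' F' (τ x)) {Q : Ideal S} {a a' π : S}
    (ha : (minpoly S pb.gen).eval a ∈ Q) (ha' : (minpoly S pb.gen).eval a' ∈ Q)
    (hgen : τ pb.gen - algebraMap S S' a' ∈ up pb Q a ha)
    (hP : LocPrin (up pb Q a ha) (algebraMap S S' π)) {p : ℕ} {u k1 β : F'} (hk1 : k1 ≠ 0) {nβ : ℤ}
    (hβ : VEq (up pb Q a ha) (algebraMap S S' π) (p * nβ) β) (hτu : τF u = β * u * k1 ^ p)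
    {k k' : ℤ} (h : VEq (up pb Q a' ha') (algebraMap S S' π) k u)
    (h' : VEq (up pb Q a ha) (algebraMap S S' π) k' u) : (p : ℤ) ∣ k - k' := by
  obtain ⟨m, hm⟩ := exists_vEq hP hk1
  have h1 := vEq_shift τ τF hτ ha ha' hgen h
  rw [hτu] at h1
  have h2 := (hβ.mul hP h').mul hP (hm.pow hP p)
  have h3 := h1.unique hP h2
  exact ⟨nβ + m, by rw [h3]; ring⟩

/-- **(B3)** all the valuations are congruent modulo `p`. -/
theorem dvd_sub_all (τ : S' →ₐ[S] S') (τF : F' →+* F')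
    (hτ : ∀ x, τF (algebraMap S' F' x) = algebraMap S' F' (τ x)) {Q : Ideal S} {g π ζ : S} {p : ℕ}
    (hmem : ∀ i : Fin p, (minpoly S pb.gen).eval (g + cI S p i) ∈ Q)
    (hτgen : τ pb.gen = algebraMap S S' ζ * pb.gen + 1) (hζ : ζ - 1 ∈ Q)
    (hP : ∀ i, LocPrin (up pb Q (g + cI S p i) (hmem i)) (algebraMap S S' π))
    {u k1 β : F'} (hk1 : k1 ≠ 0) {nβ : ℤ}
    (hβ : ∀ i, VEq (up pb Q (g + cI S p i) (hmem i)) (algebraMap S S' π) (p * nβ) β)
    (hτu : τF u = β * u * k1 ^ p) {b : Fin p → ℤ}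
    (hb : ∀ i, VEq (up pb Q (g + cI S p i) (hmem i)) (algebraMap S S' π) (b i) u) (i j : Fin p) :
    (p : ℤ) ∣ b i - b j := by
  have key : ∀ (m : ℕ) (hm : m < p), (p : ℤ) ∣ b ⟨m, hm⟩ - b ⟨0, lt_of_le_of_lt (Nat.zero_le _) hm⟩ := by
    intro m
    induction m with
    | zero => intro hm; rw [sub_self]; exact dvd_zero _
    | succ m ih =>
      intro hm
      have hm' : m < p := Nat.lt_of_succ_lt hm
      have hgen : τ pb.gen - algebraMap S S' (g + cI S p ⟨m + 1, hm⟩)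
          ∈ up pb Q (g + cI S p ⟨m, hm'⟩) (hmem ⟨m, hm'⟩) := by
        have e : τ pb.gen - algebraMap S S' (g + cI S p ⟨m + 1, hm⟩)
            = algebraMap S S' ζ * (pb.gen - algebraMap S S' (g + cI S p ⟨m, hm'⟩))
              + algebraMap S S' ((ζ - 1) * (g + cI S p ⟨m, hm'⟩)) := by
          rw [hτgen]
          simp only [cI, map_add, map_mul, map_sub, map_one, map_natCast, Nat.cast_add,
            Nat.cast_one]
          ring
        rw [e]
        exact Ideal.add_mem _ (Ideal.mul_mem_left _ _ (gen_sub_mem_up _))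
          ((algebraMap_mem_up_iff _).2 (Q.mul_mem_right _ hζ))
      have h1 := dvd_sub_of_tau τ τF hτ (hmem ⟨m, hm'⟩) (hmem ⟨m + 1, hm⟩) hgen (hP _) hk1 (hβ _)
        hτu (hb ⟨m + 1, hm⟩) (hb ⟨m, hm'⟩)
      have h2 := dvd_add h1 (ih hm')
      rwa [sub_add_sub_cancel] at h2
  have h1 := key i i.2
  have h2 := key j j.2
  have h3 := dvd_sub h1 h2
  rwa [sub_sub_sub_cancel_right] at h3

end Fermat.Agent.S44.Const
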