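import Fermat.Agent.S44.Const.Red
import Fermat.Agent.S44.Const.Shift

/-!
# S44 / Const / Chart : the two abstract chart theorems.

* `ncv` (chart `X`)   : for every valuation ring `V ⊇ ρ(S)` of `L`: `∃ y, y ^ p * (φ ^ T * ρ X ^ (a - b0))` is a unit of `V`;
* `cuv` (chart `1/X`) : for every valuation ring `V ⊇ ρ(S)` whose centre is a smooth point: `∃ y, y ^ p * φ` is a unit of `V`.
-/

set_option autoImplicit false
set_option linter.unusedSectionVars false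
set_option linter.style.haveILetI false

open Polynomial

namespace Fermat.Agent.S44.Const

open Fermat.Agent.S44.Loc

/-- the centre of a valuation ring. -/
theorem exists_centre {S L : Type*} [CommRing S] [Field L] (ρ : S →+* L) (V : ValuationSubring L)
    (hV : ∀ s, ρ s ∈ V) :
    ∃ n : Ideal S, n.IsMaximal ∧ (∀ s, ρ s ∈ V.nonunits → s ∈ n) ∧
      ∀ s, s ∉ n → IsUnitIn V (ρ s) := by
  let ρV : S →+* V := ρ.codRestrict V.toSubring hV
  have hne : Ideal.comap ρV (IsLocalRing.maximalIdeal V) ≠ ⊤ :=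
    (Ideal.comap_isPrime ρV (IsLocalRing.maximalIdeal V)).ne_top
  obtain ⟨n, hn, hle⟩ := Ideal.exists_le_maximal _ hne
  refine ⟨n, hn, fun s hs => hle ?_, fun s hs => ⟨hV s, ?_⟩⟩
  · obtain ⟨h1, h2⟩ := ValuationSubring.mem_nonunits_iff_exists_mem_maximalIdeal.1 hs
    exact h2
  · have h1 : ρV s ∉ IsLocalRing.maximalIdeal V := fun h => hs (hle h)
    have h2 : IsUnit (ρV s) := IsLocalRing.notMem_maximalIdeal.1 h1
    have h3 := (V.valuation_eq_one_iff (ρV s)).1 h2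
    rw [← V.valuation_le_one_iff, map_inv₀]
    have h4 : V.valuation (ρ s) = 1 := h3
    rw [h4, inv_one]

variable {S S' : Type*} [CommRing S] [CommRing S'] [Algebra S S'] {pb : PowerBasis S S'}
  [IsDomain S] [IsNoetherianRing S] [IsIntegrallyClosed S] [IsDomain S']
  {F F' : Type*} [Field F] [Field F'] [Algebra S F] [IsFractionRing S F] [Algebra S' F']
  [IsFractionRing S' F'] [Algebra S F'] [Algebra F F'] [IsScalarTower S F F'] [IsScalarTower S S' F']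
  [Algebra.IsSeparable F F'] {L : Type*} [Field L]

/-- the derivative condition at a maximal ideal containing `π`. -/
theorem hder_of {n : Ideal S} (hn : n ≠ ⊤) {π : S} (hπn : π ∈ n)
    (der : ∃ (w : S') (s' : S), aeval pb.gen (derivative (minpoly S pb.gen)) * w
      = algebraMap S S' (-1 + π * s')) :
    ∃ (w : S') (j : ℕ) (s : S), s ∉ n ∧
      aeval pb.gen (derivative (minpoly S pb.gen)) * w = algebraMap S S' (π ^ j * s) := by
  obtain ⟨w, s', e⟩ := der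
  refine ⟨w, 0, -1 + π * s', fun hm => hn ?_, by rw [pow_zero, one_mul, e]⟩
  rw [Ideal.eq_top_iff_one]
  have h1 := n.sub_mem (n.mul_mem_right s' hπn) hm
  have h2 : π * s' - (-1 + π * s') = 1 := by ring
  rwa [h2] at h1

/-- **chart `1/X`** (only smooth points). -/
theorem cuv (Bp : PowerBasis F F') (hB : Bp.gen = algebraMap S' F' pb.gen) {p : ℕ} (hp : p.Prime)
    {π g : S} {Q : Ideal S} (hπp : π ∣ (p : S)) (hP : LocPrin Q π)
    (fac : (minpoly S pb.gen).map (Ideal.Quotient.mk Q)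
      = ∏ i : Fin p, (X - C (Ideal.Quotient.mk Q (g + cI S p i))))
    (der : ∃ (w : S') (s' : S), aeval pb.gen (derivative (minpoly S pb.gen)) * w
      = algebraMap S S' (-1 + π * s'))
    (ρ : S →+* L) (hρ : ∀ x ∈ Q, ρ x = 0) (hker : ∀ x, ρ x = 0 → x ∈ Q) (i0 : Fin p)
    (ha : (minpoly S pb.gen).eval (g + cI S p i0) ∈ Q) {u : F'} {a : ℤ}
    (hu : VEq (up pb Q (g + cI S p i0) ha) (algebraMap S S' π) a u)
    (hinv : ∀ (n : Ideal S) (_ : n.IsMaximal) (hQn : Q ≤ n),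
      InvKAt (up pb n (g + cI S p i0) (hQn ha)) (algebraMap S S' π) p u)
    {φ : L} (hφ : RedF (rho' pb ρ hρ (g + cI S p i0) ha)
      (u * algebraMap S' F' (algebraMap S S' π) ^ (-a)) φ)
    (V : ValuationSubring L) (hV : ∀ s, ρ s ∈ V)
    (hsm : ∀ n : Ideal S, n.IsMaximal → (∀ s, ρ s ∈ V.nonunits → s ∈ n) → SmoothAt n π Q) :
    ∃ y : L, y ≠ 0 ∧ IsUnitIn V (y ^ p * φ) := by
  obtain ⟨n, hn, hcen, hunit⟩ := exists_centre ρ V hV
  have h := hsm n hn hcen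
  have hpn : (p : S) ∈ n := by
    obtain ⟨d, hd⟩ := hπp
    rw [hd]; exact n.mul_mem_right _ (h.le h.mem)
  have hpQ : (p : S) ∈ Q := by
    obtain ⟨d, hd⟩ := hπp
    rw [hd]; exact Q.mul_mem_right _ h.mem
  have h1 : EtData pb n Q g (cI S p) := etData hp hn.ne_top hpn fac
  have h1Q : EtData pb Q Q g (cI S p) := etData hp hP.prime.ne_top hpQ fac
  have hP' := locPrin_up hP h1Q i0
  obtain ⟨y, s, t, hy, hs, ht, e⟩ := smooth_case Bp hB h h1 (hder_of hn.ne_top (h.le h.mem) der)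
    hp.pos i0 hP' hu (hinv n hn h.le)
  obtain ⟨yb, hyb, hyr⟩ := exists_redF_of_vEq hρ ha hker (algebraMap_pi_ne_zero hP') hy
  rw [neg_zero, zpow_zero, mul_one] at hyr
  obtain ⟨s₀, hs₀, hs₀'⟩ := exists_rep hρ ha s
  obtain ⟨t₀, ht₀, ht₀'⟩ := exists_rep hρ ha t
  have e1 := ((RedF.of_algebraMap s).mul ((hyr.pow p).mul hφ)).congr e
  have e2 := e1.unique (RedF.of_algebraMap t)
  rw [hs₀, ht₀] at e2
  have us := hunit s₀ (fun hm => hs ((hs₀' n _).2 hm))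
  have ut := hunit t₀ (fun hm => ht ((ht₀' n _).2 hm))
  refine ⟨yb, hyb, ?_⟩
  have hs0 : ρ s₀ ≠ 0 := by
    intro h0
    have := us.2
    have h3 := us.mul us.inv
    exact hs ((hs₀' n _).2 (h.le (hker _ h0)))
  have e3 : yb ^ p * φ = ρ t₀ * (ρ s₀)⁻¹ := by
    rw [← e2]; field_simp
  rw [e3]
  exact ut.mul us.inv

/-- **chart `X`** (nodes and smooth points). -/
theorem ncv (Bp : PowerBasis F F') (hB : Bp.gen = algebraMap S' F' pb.gen) {p : ℕ} (hp : p.Prime)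
    {π g1 g2 : S} {Q1 Q2 : Ideal S} (hπp : π ∣ (p : S)) (hP1 : LocPrin Q1 π)
    (fac1 : (minpoly S pb.gen).map (Ideal.Quotient.mk Q1)
      = ∏ i : Fin p, (X - C (Ideal.Quotient.mk Q1 (g1 + cI S p i))))
    (fac2 : (minpoly S pb.gen).map (Ideal.Quotient.mk Q2)
      = ∏ i : Fin p, (X - C (Ideal.Quotient.mk Q2 (g2 + cI S p i))))
    (der : ∃ (w : S') (s' : S), aeval pb.gen (derivative (minpoly S pb.gen)) * w
      = algebraMap S S' (-1 + π * s'))
    (tri : ∀ n : Ideal S, n.IsMaximal → Q1 ≤ n → NodeAt n π Q1 Q2 ∨ SmoothAt n π Q1)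
    {X₀ U ε : S} {T : ℕ} (hX : XData F π Q1 Q2 X₀ T) (hpT : Nat.Coprime p T)
    (hXU : X₀ * U = π ^ T * ε) (he : IsUnit ε)
    (ρ : S →+* L) (hρ : ∀ x ∈ Q1, ρ x = 0) (hker : ∀ x, ρ x = 0 → x ∈ Q1) (i0 : Fin p)
    (ha : (minpoly S pb.gen).eval (g1 + cI S p i0) ∈ Q1)
    (ha2 : ∀ j, (minpoly S pb.gen).eval (g2 + cI S p j) ∈ Q2) {u : F'} {a b0 : ℤ} {b : Fin p → ℤ}
    (hu1 : VEq (up pb Q1 (g1 + cI S p i0) ha) (algebraMap S S' π) a u)
    (hu2 : ∀ j, VEq (up pb Q2 (g2 + cI S p j) (ha2 j)) (algebraMap S S' π) (b j) u)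
    (hb : ∀ j, (p : ℤ) ∣ b j - b0)
    (hinv : ∀ (n : Ideal S) (_ : n.IsMaximal) (hQn : Q1 ≤ n),
      InvKAt (up pb n (g1 + cI S p i0) (hQn ha)) (algebraMap S S' π) p u)
    {φ : L} (hφ : RedF (rho' pb ρ hρ (g1 + cI S p i0) ha)
      (u * algebraMap S' F' (algebraMap S S' π) ^ (-a)) φ)
    (V : ValuationSubring L) (hV : ∀ s, ρ s ∈ V) :
    ∃ y : L, y ≠ 0 ∧ IsUnitIn V (y ^ p * (φ ^ T * ρ X₀ ^ (a - b0))) := by
  obtain ⟨n, hn, hcen, hunit⟩ := exists_centre ρ V hV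
  have hQ1n : Q1 ≤ n := fun x hx => hcen x (by
    rw [hρ x hx, ValuationSubring.mem_nonunits_iff, map_zero]; exact zero_lt_one)
  have hπn : π ∈ n := hQ1n hP1.mem
  have hpn : (p : S) ∈ n := by
    obtain ⟨d, hd⟩ := hπp
    rw [hd]; exact n.mul_mem_right _ hπn
  have hpQ : (p : S) ∈ Q1 := by
    obtain ⟨d, hd⟩ := hπp
    rw [hd]; exact Q1.mul_mem_right _ hP1.mem
  have h1 : EtData pb n Q1 g1 (cI S p) := etData hp hn.ne_top hpn fac1
  have h2 : EtData pb n Q2 g2 (cI S p) := etData hp hn.ne_top hpn fac2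
  have h1Q : EtData pb Q1 Q1 g1 (cI S p) := etData hp hP1.prime.ne_top hpQ fac1
  have hP' := locPrin_up hP1 h1Q i0
  have hπ' := algebraMap_pi_ne_zero (F := F') hP'
  have hX0 : ρ X₀ ≠ 0 := fun h0 => hX.notMem1 (hker _ h0)
  have hXr : RedF (rho' pb ρ hρ (g1 + cI S p i0) ha) (algebraMap S' F' (algebraMap S S' X₀)) (ρ X₀) := by
    have := RedF.of_algebraMap (F' := F') (ρ' := rho' pb ρ hρ (g1 + cI S p i0) ha)
      (algebraMap S S' X₀)
    rwa [rho'_algebraMap] at this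
  rcases tri n hn hQ1n with h | h
  · -- node
    obtain ⟨j0, y, s, t, hy, hs, ht, e⟩ := node_case Bp hB h h1 h2 (hder_of hn.ne_top hπn der)
      hp.pos hX hpT i0 hu1 hu2 (hinv n hn hQ1n)
    obtain ⟨yb, hyb, hyr⟩ := exists_redF_of_vEq hρ ha hker hπ' hy
    rw [neg_zero, zpow_zero, mul_one] at hyr
    obtain ⟨s₀, hs₀, hs₀'⟩ := exists_rep hρ ha s
    obtain ⟨t₀, ht₀, ht₀'⟩ := exists_rep hρ ha t
    have ex : u ^ T * algebraMap S' F' (algebraMap S S' X₀) ^ (a - b j0) *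
        algebraMap S' F' (algebraMap S S' π) ^ (-(T * a))
        = (u * algebraMap S' F' (algebraMap S S' π) ^ (-a)) ^ T *
          algebraMap S' F' (algebraMap S S' X₀) ^ (a - b j0) := by
      rw [mul_pow, ← zpow_natCast (_ ^ (-a)), ← zpow_mul]
      have : -a * (T : ℤ) = -(T * a) := by ring
      rw [this]; ring
    rw [ex] at e
    have e1 := ((RedF.of_algebraMap s).mul ((hyr.pow p).mul
      ((hφ.pow T).mul (hXr.zpow hX0 (a - b j0))))).congr e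
    have e2 := e1.unique (RedF.of_algebraMap t)
    rw [hs₀, ht₀] at e2
    have us := hunit s₀ (fun hm => hs ((hs₀' n _).2 hm))
    have ut := hunit t₀ (fun hm => ht ((ht₀' n _).2 hm))
    have hs0 : ρ s₀ ≠ 0 := fun h0 => hs ((hs₀' n _).2 (hQ1n (hker _ h0)))
    obtain ⟨d, hd⟩ := hb j0
    refine ⟨yb * ρ X₀ ^ (-d), mul_ne_zero hyb (zpow_ne_zero _ hX0), ?_⟩
    have e3 : (yb * ρ X₀ ^ (-d)) ^ p * (φ ^ T * ρ X₀ ^ (a - b0)) = ρ t₀ * (ρ s₀)⁻¹ := by
      rw [← e2]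
      have e4 : ρ X₀ ^ (a - b j0) = ρ X₀ ^ (a - b0) * (ρ X₀ ^ (-d)) ^ p := by
        rw [← zpow_natCast (_ ^ (-d)), ← zpow_mul, ← zpow_add₀ hX0]
        congr 1
        have : b j0 = b0 + p * d := by linarith
        rw [this]; ring
      rw [e4, mul_pow]
      field_simp
    rw [e3]
    exact ut.mul us.inv
  · -- smooth
    obtain ⟨y, s, t, hy, hs, ht, e⟩ := smooth_case Bp hB h h1 (hder_of hn.ne_top hπn der)
      hp.pos i0 hP' hu1 (hinv n hn hQ1n)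
    obtain ⟨yb, hyb, hyr⟩ := exists_redF_of_vEq hρ ha hker hπ' hy
    rw [neg_zero, zpow_zero, mul_one] at hyr
    obtain ⟨s₀, hs₀, hs₀'⟩ := exists_rep hρ ha s
    obtain ⟨t₀, ht₀, ht₀'⟩ := exists_rep hρ ha t
    have e1 := ((RedF.of_algebraMap s).mul ((hyr.pow p).mul hφ)).congr e
    have e2 := e1.unique (RedF.of_algebraMap t)
    rw [hs₀, ht₀] at e2
    have us := hunit s₀ (fun hm => hs ((hs₀' n _).2 hm))
    have ut := hunit t₀ (fun hm => ht ((ht₀' n _).2 hm))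
    have hs0 : ρ s₀ ≠ 0 := fun h0 => hs ((hs₀' n _).2 (hQ1n (hker _ h0)))
    have hen : ε ∉ n := fun hm => hn.ne_top (Ideal.eq_top_of_isUnit_mem _ hm he)
    have uX := hunit X₀ (X_notMem_of_smooth h hX.notMem1 T U ε hen hXU)
    refine ⟨yb ^ T, pow_ne_zero _ hyb, ?_⟩
    have e3 : (yb ^ T) ^ p * (φ ^ T * ρ X₀ ^ (a - b0))
        = (ρ t₀ * (ρ s₀)⁻¹) ^ T * ρ X₀ ^ (a - b0) := by
      have e4 : ρ t₀ * (ρ s₀)⁻¹ = yb ^ p * φ := by
        rw [← e2]; field_simp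
      rw [e4, mul_pow, ← pow_mul, ← pow_mul, mul_comm T p, mul_assoc]
    rw [e3]
    exact ((ut.mul us.inv).pow T).mul (uX.zpow _)

end Fermat.Agent.S44.Const
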