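import Fermat.Agent.S44.Defs
import Fermat.Agent.S44.ESide.VG
import Fermat.Agent.Crux.Descent
import Fermat.Agent.SS.GM2.Desc.FinRes

/-!
# S44 / Const / Field : the field package of step (1) of CONST (helper91 #2833)

* `G0 ζ y₀ y` : the subgroup `{g : g ζ = ζ, g y₀ = y₀, g y - y ∈ ℤ y₀}` of `G_ℚ`;
* `exists_field` : `K₀ := ℚ̄ ^ G0` is a number field, contains `ζ`, `Gal(ℚ̄/K₀) = G0`, it is fixed pointwise by `I₁` and stable
  under the inertia group;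
* `maximalIdeal_A0`, `irreducible_lam` : for every number field `K₀ ∋ ζ` fixed pointwise by `I₁`, `ζ - 1` is a uniformiser of
  `A₀ = A ∩ K₀` (`Crux.A0 K₀ A`).
-/

set_option autoImplicit false

open AlgebraicCurve ModularCurve

namespace Fermat.Agent.S44.Const

open Fermat.Agent.ES Fermat.Agent.SS Fermat.Agent.S33
open Fermat.Agent.Crux (A0)

noncomputable section

theorem galKum_inv_apply {N p : ℕ} (a : GQ) (x : Kum N p) :
    galKum N p a⁻¹ (galKum N p a x) = x := by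
  rw [← galKum_mul, inv_mul_cancel, galKum_one]

/-- `{g : g ζ = ζ, g y₀ = y₀, g y - y ∈ ℤ y₀}`. -/
def G0 {N p : ℕ} (ζ : Qb) (y₀ y : Kum N p) : Subgroup GQ where
  carrier := {g | g ζ = ζ ∧ galKum N p g y₀ = y₀ ∧ ∃ n : ℤ, galKum N p g y = y + n • y₀}
  mul_mem' := by
    rintro a b ⟨ha1, ha2, na, ha3⟩ ⟨hb1, hb2, nb, hb3⟩
    refine ⟨by rw [AlgEquiv.mul_apply, hb1, ha1], by rw [galKum_mul, hb2, ha2], na + nb, ?_⟩
    rw [galKum_mul, hb3, map_add, map_zsmul, ha2, ha3, add_smul, add_assoc]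
  one_mem' := ⟨rfl, galKum_one _, 0, by rw [galKum_one, zero_smul, add_zero]⟩
  inv_mem' := by
    rintro a ⟨ha1, ha2, na, ha3⟩
    have h1 : a⁻¹ ζ = ζ := by
      have : a⁻¹ (a ζ) = ζ := by
        rw [← AlgEquiv.mul_apply, inv_mul_cancel, AlgEquiv.one_apply]
      rwa [ha1] at this
    have h2 : galKum N p a⁻¹ y₀ = y₀ := by
      have := galKum_inv_apply a y₀
      rwa [ha2] at this
    refine ⟨h1, h2, -na, ?_⟩
    have h3 := galKum_inv_apply a y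
    rw [ha3, map_add, map_zsmul, h2] at h3
    rw [neg_smul]
    nth_rewrite 2 [← h3]
    abel

theorem mem_G0 {N p : ℕ} {ζ : Qb} {y₀ y : Kum N p} {g : GQ} :
    g ∈ G0 ζ y₀ y ↔ g ζ = ζ ∧ galKum N p g y₀ = y₀ ∧ ∃ n : ℤ, galKum N p g y = y + n • y₀ :=
  Iff.rfl

theorem exists_nat_smul {N p : ℕ} (hp : 0 < p) (y₀ : Kum N p) (n : ℤ) :
    ∃ k : ℕ, n • y₀ = k • y₀ := by
  refine ⟨(n % p).toNat, ?_⟩
  have h1 : ((n % p).toNat : ℤ) = n % p :=
    Int.toNat_of_nonneg (Int.emod_nonneg _ (by exact_mod_cast hp.ne'))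
  rw [← natCast_zsmul, h1]
  conv_lhs => rw [← Int.emod_add_mul_ediv n p]
  rw [add_smul, mul_smul, natCast_zsmul, Kum.nsmul_eq_zero, add_zero]

/-- `G0` contains the fixing subgroup of a number field. -/
theorem exists_le_G0 {N p : ℕ} [NeZero N] (ζ : Qb) (y₀ y : Kum N p) :
    ∃ L : IntermediateField ℚ Qb, FiniteDimensional ℚ L ∧ L.fixingSubgroup ≤ G0 ζ y₀ y := by
  obtain ⟨L₁, hL₁, h₁⟩ := galKum_smooth N p y₀
  obtain ⟨L₂, hL₂, h₂⟩ := galKum_smooth N p y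
  have : FiniteDimensional ℚ (IntermediateField.adjoin ℚ {ζ}) :=
    IntermediateField.adjoin.finiteDimensional
      ((AlgebraicClosure.isAlgebraic ℚ).isAlgebraic ζ).isIntegral
  refine ⟨L₁ ⊔ L₂ ⊔ IntermediateField.adjoin ℚ {ζ}, inferInstance, ?_⟩
  intro g hg
  rw [IntermediateField.mem_fixingSubgroup_iff] at hg
  refine ⟨hg ζ ?_, h₁ g fun x hx => hg x ?_, 0, ?_⟩
  · exact (le_sup_right : _ ≤ L₁ ⊔ L₂ ⊔ IntermediateField.adjoin ℚ {ζ})
      (IntermediateField.mem_adjoin_simple_self ℚ ζ)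
  · exact (le_sup_left : _ ≤ L₁ ⊔ L₂ ⊔ IntermediateField.adjoin ℚ {ζ}) (le_sup_left (a := L₁) hx)
  · rw [zero_smul, add_zero]
    exact h₂ g fun x hx =>
      hg x ((le_sup_left : _ ≤ L₁ ⊔ L₂ ⊔ IntermediateField.adjoin ℚ {ζ}) (le_sup_right (b := L₂) hx))

/-- **The field package.** -/
theorem exists_field {M p : ℕ} [NeZero M] [NeZero p] (hp : p.Prime) {A : ValuationSubring Qb}
    {w : FF (M * p) →ₐ[Qb] FF (M * p)} {hw : IsAL M p w} {ζ : Qb} (hζ : IsPrimitiveRoot ζ p)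
    {S : Finset ℕ} {a : ℕ → ℤ} {y₀ y : Kum (M * p) p} (hpair : Pair M p hp A hw S a y₀ y) :
    ∃ K₀ : IntermediateField ℚ Qb, FiniteDimensional ℚ K₀ ∧ ζ ∈ K₀ ∧
      (∀ g : GQ, (∀ x ∈ K₀, g x = x) → galKum (M * p) p g y₀ = y₀ ∧
        ∃ n : ℕ, galKum (M * p) p g y = y + n • y₀) ∧
      (∀ s ∈ I1 A ζ, ∀ x ∈ K₀, s x = x) ∧
      (∀ s ∈ A.inertiaSubgroupIn ℚ, ∀ x ∈ K₀, s x ∈ K₀) := by
  obtain ⟨L, hL, hLG⟩ := exists_le_G0 ζ y₀ y
  have hac : IsAlgClosure ℚ Qb :=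
    (inferInstance : @IsAlgClosure ℚ (AlgebraicClosure ℚ) _ _ (AlgebraicClosure.instAlgebra ℚ) _)
  have hgal : IsGalois ℚ Qb := IsAlgClosure.isGalois ℚ Qb
  have hopen : IsOpen ((G0 ζ y₀ y : Subgroup GQ) : Set GQ) :=
    Subgroup.isOpen_mono hLG (IntermediateField.fixingSubgroup_isOpen L)
  have hclosed : IsClosed ((G0 ζ y₀ y : Subgroup GQ) : Set GQ) :=
    Subgroup.isClosed_of_isOpen _ hopen
  have hfix : (IntermediateField.fixedField (G0 ζ y₀ y)).fixingSubgroup = G0 ζ y₀ y :=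
    InfiniteGalois.fixingSubgroup_fixedField ⟨G0 ζ y₀ y, hclosed⟩
  have hle : IntermediateField.fixedField (G0 ζ y₀ y) ≤ L := by
    have h1 : IntermediateField.fixedField (G0 ζ y₀ y)
        ≤ IntermediateField.fixedField L.fixingSubgroup := by
      intro x hx
      rw [IntermediateField.mem_fixedField_iff] at hx ⊢
      exact fun g hg => hx g (hLG hg)
    rwa [InfiniteGalois.fixedField_fixingSubgroup] at h1
  -- inertia: exponents
  have hexp : ∀ s : GQ, ∃ e : ℕ, ∀ z : Qb, z ^ p = 1 → s z = z ^ e := by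
    intro s
    obtain ⟨e, -, he⟩ := hζ.eq_pow_of_pow_eq_one
      (show (s ζ) ^ p = 1 by rw [← map_pow, hζ.pow_eq_one, map_one])
    refine ⟨e, fun z hz => ?_⟩
    obtain ⟨i, -, rfl⟩ := hζ.eq_pow_of_pow_eq_one hz
    rw [map_pow, ← he, ← pow_mul, ← pow_mul, mul_comm]
  refine ⟨IntermediateField.fixedField (G0 ζ y₀ y), ?_, ?_, ?_, ?_, ?_⟩
  · exact FiniteDimensional.of_injective (IntermediateField.inclusion hle).toLinearMap
      (IntermediateField.inclusion hle).injective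
  · rw [IntermediateField.mem_fixedField_iff]
    exact fun g hg => hg.1
  · intro g hg
    have hgG : g ∈ G0 ζ y₀ y := by
      rw [← hfix, IntermediateField.mem_fixingSubgroup_iff]
      exact hg
    obtain ⟨-, h2, n, h3⟩ := hgG
    obtain ⟨k, hk⟩ := exists_nat_smul hp.pos y₀ n
    exact ⟨h2, k, by rw [h3, hk]⟩
  · intro s hs x hx
    rw [IntermediateField.mem_fixedField_iff] at hx
    apply hx
    refine ⟨hs.2, ?_, ?_⟩
    · have h1 := hpair.tor s hs.1 1 (by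
        intro z hz
        obtain ⟨i, -, rfl⟩ := hζ.eq_pow_of_pow_eq_one hz
        rw [map_pow, hs.2, pow_one])
      rwa [one_smul] at h1
    · obtain ⟨n, hn⟩ := hpair.coc s hs.1
      exact ⟨n, by rw [hn, natCast_zsmul]⟩
  · intro s hs x hx
    rw [IntermediateField.mem_fixedField_iff] at hx ⊢
    intro g hg
    obtain ⟨hg1, hg2, ng, hg3⟩ := hg
    -- `h := s⁻¹ g s ∈ G0`
    obtain ⟨e, he⟩ := hexp s
    obtain ⟨e', he'⟩ := hexp s⁻¹
    have hs' : s⁻¹ ∈ A.inertiaSubgroupIn ℚ := inv_mem hs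
    have t1 := hpair.tor s hs e he
    have t2 := hpair.tor s⁻¹ hs' e' he'
    obtain ⟨ns, hns⟩ := hpair.coc s hs
    have hh : s⁻¹ * g * s ∈ G0 ζ y₀ y := by
      refine ⟨?_, ?_, ng * e', ?_⟩
      · rw [AlgEquiv.mul_apply, AlgEquiv.mul_apply, he ζ hζ.pow_eq_one, map_pow, hg1,
          ← he ζ hζ.pow_eq_one, ← AlgEquiv.mul_apply, inv_mul_cancel, AlgEquiv.one_apply]
      · rw [galKum_mul, galKum_mul, t1, map_nsmul, hg2, ← t1, galKum_inv_apply]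
      · rw [galKum_mul, galKum_mul, hns, map_add, map_nsmul, hg2, hg3, map_add, map_add,
          map_zsmul, map_nsmul, t2]
        have h5 := galKum_inv_apply s y
        rw [hns, map_add, map_nsmul, t2] at h5
        rw [mul_smul, natCast_zsmul]
        calc galKum (M * p) p s⁻¹ y + ng • e' • y₀ + ns • e' • y₀
            = (galKum (M * p) p s⁻¹ y + ns • e' • y₀) + ng • e' • y₀ := by abel
          _ = y + ng • e' • y₀ := by rw [h5]
    have h6 := hx _ hh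
    rw [AlgEquiv.mul_apply, AlgEquiv.mul_apply] at h6
    have h7 := congrArg s h6
    rwa [← AlgEquiv.mul_apply, mul_inv_cancel, AlgEquiv.one_apply] at h7

/-! ### the uniformiser -/

section Unif

variable {p : ℕ} {A : ValuationSubring Qb} {ζ : Qb}

theorem val_lam_lt_one (hp : p.Prime) (hA : A.LiesOverPrime p) (hζ : IsPrimitiveRoot ζ p) :
    A.valuation (ζ - 1) < 1 :=
  ESide.val_sub_one_lt_one A.valuation hp hζ ((ValuationSubring.mem_nonunits_iff (A := A)).mp hA)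

/-- `ζ - 1` as an element of `A₀ = A ∩ K₀`. -/
def lam₀ (hp : p.Prime) (hA : A.LiesOverPrime p) (hζ : IsPrimitiveRoot ζ p)
    (K₀ : IntermediateField ℚ Qb) (hζK : ζ ∈ K₀) : A0 K₀ A :=
  ⟨(⟨ζ, hζK⟩ : K₀) - 1, by
    rw [ValuationSubring.mem_comap]
    show ζ - 1 ∈ A
    exact (A.valuation_le_one_iff _).mp (val_lam_lt_one hp hA hζ).le⟩

theorem coe_lam₀ (hp : p.Prime) (hA : A.LiesOverPrime p) (hζ : IsPrimitiveRoot ζ p)
    (K₀ : IntermediateField ℚ Qb) (hζK : ζ ∈ K₀) :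
    ((lam₀ hp hA hζ K₀ hζK : A0 K₀ A) : K₀) = (⟨ζ, hζK⟩ : K₀) - 1 := rfl

/-- `ζ - 1` generates the maximal ideal of `A₀`. -/
theorem maximalIdeal_A0 (hp : p.Prime) (hA : A.LiesOverPrime p) (hζ : IsPrimitiveRoot ζ p)
    (K₀ : IntermediateField ℚ Qb) (hζK : ζ ∈ K₀) (hI1 : ∀ s ∈ I1 A ζ, ∀ x ∈ K₀, s x = x) :
    IsLocalRing.maximalIdeal (A0 K₀ A) = Ideal.span {lam₀ hp hA hζ K₀ hζK} := by
  have hl1 := val_lam_lt_one hp hA hζ
  have hl0 : ζ - 1 ≠ 0 := sub_ne_zero.2 (hζ.ne_one hp.one_lt)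
  have hlpos : 0 < A.valuation (ζ - 1) := zero_lt_iff.2 ((Valuation.ne_zero_iff _).2 hl0)
  apply le_antisymm
  · intro x hx
    by_cases hx0 : (x : K₀) = 0
    · have : x = 0 := Subtype.ext hx0
      rw [this]
      exact zero_mem _
    rw [← IsLocalRing.residue_eq_zero_iff, Crux.residue_eq_zero_iff_not_inv_mem] at hx
    have hx1 : ((x : K₀) : Qb)⁻¹ ∉ A := by
      have h := hx.resolve_left hx0
      rw [ValuationSubring.mem_comap, map_inv₀] at h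
      exact h
    have hX0 : ((x : K₀) : Qb) ≠ 0 := fun h => hx0 (Subtype.ext h)
    have hXlt : A.valuation ((x : K₀) : Qb) < 1 := by
      rw [← A.valuation_le_one_iff, map_inv₀, not_le] at hx1
      exact (one_lt_inv₀ (zero_lt_iff.2 ((Valuation.ne_zero_iff _).2 hX0))).1 hx1
    obtain ⟨n, hn⟩ := ESide.vg A hp hA ζ hζ ((x : K₀) : Qb) hX0
      (fun s hs hsζ => hI1 s ⟨hs, hsζ⟩ _ (x : K₀).2)
    have hnpos : 0 < n := by
      rw [hn] at hXlt
      exact (zpow_lt_one_iff_right_of_lt_one₀ hlpos hl1).1 hXlt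
    rw [Ideal.mem_span_singleton']
    have hq : (x : K₀) / ((⟨ζ, hζK⟩ : K₀) - 1) ∈ A0 K₀ A := by
      rw [ValuationSubring.mem_comap]
      show ((x : K₀) : Qb) / (ζ - 1) ∈ A
      rw [← A.valuation_le_one_iff, map_div₀, hn, div_le_one₀ hlpos]
      calc A.valuation (ζ - 1) ^ n ≤ A.valuation (ζ - 1) ^ (1 : ℤ) :=
            zpow_le_zpow_right_of_le_one₀ hlpos hl1.le (by omega)
        _ = A.valuation (ζ - 1) := zpow_one _
    refine ⟨⟨_, hq⟩, ?_⟩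
    apply Subtype.ext
    show (x : K₀) / ((⟨ζ, hζK⟩ : K₀) - 1) * ((⟨ζ, hζK⟩ : K₀) - 1) = (x : K₀)
    have hne : ((⟨ζ, hζK⟩ : K₀) - 1) ≠ 0 := by
      intro h
      exact hl0 (congrArg Subtype.val h)
    rw [div_mul_cancel₀ _ hne]
  · rw [Ideal.span_singleton_le_iff_mem, ← IsLocalRing.residue_eq_zero_iff,
      Crux.residue_eq_zero_iff_not_inv_mem]
    right
    rw [ValuationSubring.mem_comap, map_inv₀]
    show (ζ - 1)⁻¹ ∉ A
    rw [← A.valuation_le_one_iff, map_inv₀, not_le]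
    exact (one_lt_inv₀ hlpos).2 hl1

theorem isDVR_A0 (hp : p.Prime) (hA : A.LiesOverPrime p) (K₀ : IntermediateField ℚ Qb)
    [FiniteDimensional ℚ K₀] : IsDiscreteValuationRing (A0 K₀ A) :=
  haveI : NumberField K₀ := ⟨⟩
  Crux.isDiscreteValuationRing_of_numberField _ (Crux.A0_ne_top K₀ A hp hA)

theorem finite_res_A0 (hp : p.Prime) (hA : A.LiesOverPrime p) (K₀ : IntermediateField ℚ Qb)
    [FiniteDimensional ℚ K₀] : Finite (IsLocalRing.ResidueField (A0 K₀ A)) :=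
  haveI : NumberField K₀ := ⟨⟩
  SS.GM2.finite_residueField _ (Crux.A0_ne_top K₀ A hp hA)

/-- `ζ - 1` is a uniformiser of `A₀`. -/
theorem irreducible_lam (hp : p.Prime) (hA : A.LiesOverPrime p) (hζ : IsPrimitiveRoot ζ p)
    (K₀ : IntermediateField ℚ Qb) [FiniteDimensional ℚ K₀] (hζK : ζ ∈ K₀)
    (hI1 : ∀ s ∈ I1 A ζ, ∀ x ∈ K₀, s x = x) : Irreducible (lam₀ hp hA hζ K₀ hζK) :=
  haveI := isDVR_A0 hp hA K₀
  (IsDiscreteValuationRing.irreducible_iff_uniformizer _).mpr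
    (maximalIdeal_A0 hp hA hζ K₀ hζK hI1)

theorem isPrimitiveRoot_K₀ (hζ : IsPrimitiveRoot ζ p) (K₀ : IntermediateField ℚ Qb)
    (hζK : ζ ∈ K₀) : IsPrimitiveRoot (⟨ζ, hζK⟩ : K₀) p :=
  IsPrimitiveRoot.of_map_of_injective (f := algebraMap K₀ Qb) hζ (algebraMap K₀ Qb).injective

end Unif

/-- **The complete package**, in the shape consumed by `S44/Inst` and `S44/PL/Desc*`. -/
theorem exists_package {M p : ℕ} [NeZero M] [NeZero p] (hp : p.Prime) {A : ValuationSubring Qb}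
    (hA : A.LiesOverPrime p)
    {w : FF (M * p) →ₐ[Qb] FF (M * p)} {hw : IsAL M p w} {ζ : Qb} (hζ : IsPrimitiveRoot ζ p)
    {S : Finset ℕ} {a : ℕ → ℤ} {y₀ y : Kum (M * p) p} (hpair : Pair M p hp A hw S a y₀ y) :
    ∃ (K₀ : IntermediateField ℚ Qb) (_ : NumberField K₀) (ζ₀ : K₀) (π : A0 K₀ A),
      IsDiscreteValuationRing (A0 K₀ A) ∧ Finite (IsLocalRing.ResidueField (A0 K₀ A)) ∧
      algebraMap K₀ Qb ζ₀ = ζ ∧ IsPrimitiveRoot ζ₀ p ∧ Irreducible π ∧ (π : K₀) = ζ₀ - 1 ∧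
      (∀ g : GQ, (∀ x ∈ K₀, g x = x) → galKum (M * p) p g y₀ = y₀ ∧
        ∃ n : ℕ, galKum (M * p) p g y = y + n • y₀) ∧
      (∀ s ∈ I1 A ζ, ∀ x ∈ K₀, s x = x) ∧
      (∀ s ∈ A.inertiaSubgroupIn ℚ, ∀ x ∈ K₀, s x ∈ K₀) := by
  obtain ⟨K₀, hfin, hζK, h1, h2, h3⟩ := exists_field hp hζ hpair
  exact ⟨K₀, ⟨⟩, ⟨ζ, hζK⟩, lam₀ hp hA hζ K₀ hζK, isDVR_A0 hp hA K₀, finite_res_A0 hp hA K₀, rfl,
    isPrimitiveRoot_K₀ hζ K₀ hζK, irreducible_lam hp hA hζ K₀ hζK h2, rfl, h1, h2, h3⟩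

end

end Fermat.Agent.S44.Const
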