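import Fermat.Agent.S44.Const.GlueX
import Fermat.Agent.S44.Const.Places.Main
import Fermat.Agent.S44.Cover.InvDesc
import Fermat.Agent.S44.Inst.Pair
import Fermat.Agent.S44.PL.Root

/-!
# S44 / Const / Core : `Inst.of_pair` + `Cover.cover_main` + `β = unit · π^(p n)`  ⟹  `NC (f^T XD^(-c))`.

* `Core_exists_Y` : `∃ Y ≠ 0, RedK r (Φ Y * t₀) 1` (the root `t₀` is Gauss-integral up to a function);
* `core` : the chain `Cover.invK_cover` → `absX'` → `Places.nc_sum`.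
-/

set_option autoImplicit false
set_option linter.unusedSectionVars false
set_option linter.style.haveILetI false

open Polynomial ModularCurve AlgebraicCurve
open scoped IntermediateField

namespace Fermat.Agent.S44.Const

open Fermat.Agent.Crux.G Fermat.Agent.SS.G2 Fermat.Agent.S44.Loc Fermat.Agent.SS.GM2
open Fermat.Agent.S44.Bridge
open Fermat.Agent.S28 (V J evAt)
open Fermat.Agent.Crux.GM (castS)
open Fermat.Agent.ES Fermat.Agent.SS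
open Fermat.Agent.Crux (A0)
open Fermat.Agent.S44.Cover (LL gact bc)
open Fermat.Agent.S44.PL (r0 kι)
open Fermat.Agent.S44.XD (XD)

noncomputable section

section Abs

variable {M p : ℕ} [NeZero M] [NeZero p]
variable {A K k : Type} [CommRing A] [IsDomain A] [IsDiscreteValuationRing A] [Field K]
  [CharZero K] [Algebra A K] [IsFractionRing A K] [Field k] [Finite k]
  {r : A →+* k} {π : A}
variable {F : Type} [Field F] [Algebra A F] {Φ : F →+* LaurentSeries K} {w : F →+* F}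
variable {E : Type} [Field E] [CharZero E] [Algebra A E] [Algebra E F] [IsScalarTower A E F]
  [FiniteDimensional E F]
variable {X : E} {ζ : A}

/-- the root `t₀` is Gauss-integral with reduction `1`, up to a function. -/
theorem Core_exists_Y (C : PL.Ctx M p r π Φ w X ζ) {W : F} {t₀ : LaurentSeries K}
    (ht₀ : t₀ ^ p = Φ W) (hW0 : W ≠ 0) {Y₁ η ξ' : F} (hY₁ : Y₁ ≠ 0)
    (hYW : Y₁ ^ p * W = 1 + algebraMap A F π ^ p * ξ')
    (hξ' : IntX A X⁻¹ ξ') (hco : ∀ n : ℤ, n ≤ 0 → (Φ ξ').coeff n = 0) (hη : IsOLx π X η) :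
    ∃ Y : F, Y ≠ 0 ∧ RedK r (Φ Y * t₀) 1 := by
  obtain ⟨t, z', z, b', b, ht, htz', -, -, hb', -⟩ := C.exists_redK_z hξ' hco hη
  have ht₀0 : t₀ ≠ 0 := by
    rintro rfl
    rw [zero_pow C.hp.ne_zero] at ht₀
    exact hW0 ((map_eq_zero Φ).1 ht₀.symm)
  have hΦY₁ : Φ Y₁ ≠ 0 := by rwa [Ne, map_eq_zero]
  have hζL : IsPrimitiveRoot (HahnSeries.C (algebraMap A K ζ) : LaurentSeries K) p :=
    (C.hζ.map_of_injective (IsFractionRing.injective A K)).map_of_injective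
      HahnSeries.C_injective
  have hΦπ : Φ (algebraMap A F π) = HahnSeries.C (algebraMap A K π) := C.S.hΦA π
  have e1 : (Φ Y₁ * t₀) ^ p = 1 + HahnSeries.C (algebraMap A K π) ^ p * Φ ξ' := by
    have h1 := congrArg Φ hYW
    simp only [map_mul, map_pow, map_add, map_one, hΦπ] at h1
    rw [mul_pow, ht₀, h1]
  have hpow : (t / (Φ Y₁ * t₀)) ^ p = 1 := by
    rw [div_pow, ht, e1]
    refine div_self ?_
    rw [← e1]
    exact pow_ne_zero p (mul_ne_zero hΦY₁ ht₀0)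
  haveI : NeZero p := ⟨C.hp.ne_zero⟩
  obtain ⟨j, -, hj⟩ := hζL.eq_pow_of_pow_eq_one hpow
  have htt : t = Φ (algebraMap A F (ζ ^ j) * Y₁) * t₀ := by
    rw [map_mul, C.S.hΦA, map_pow, map_pow, hj]
    field_simp
  have hζ0 : algebraMap A F (ζ ^ j) ≠ 0 := by
    intro h
    have h1 := C.S.hΦA (ζ ^ j)
    rw [h, map_zero, map_pow, map_pow, hj] at h1
    have h2 : t ≠ 0 := by
      intro h3
      rw [h3, zero_div, zero_pow C.hp.ne_zero] at hpow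
      exact zero_ne_one hpow
    exact div_ne_zero h2 (mul_ne_zero hΦY₁ ht₀0) h1.symm
  refine ⟨algebraMap A F (ζ ^ j) * Y₁, mul_ne_zero hζ0 hY₁, ?_⟩
  rw [← htt, htz']
  have h1 := (RedK.one (r := r) (K := K)).add ((RedK.of_C (r := r) (K := K) π).mul hb')
  rwa [Fermat.Agent.Crux.GM.map_irreducible_eq_zero r π C.S.hr C.S.hπ, map_zero, zero_mul,
    add_zero] at h1

end Abs

variable {M p : ℕ} [NeZero M] [NeZero p] {A : ValuationSubring Qb}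

/-- **the core of CONST (b).** -/
theorem core (hp : p.Prime) (hp5 : 5 ≤ p) (hpM : ¬ p ∣ M) (hA : A.LiesOverPrime p)
    (K₀ : IntermediateField ℚ Qb) [NumberField K₀] [IsDiscreteValuationRing (A0 K₀ A)]
    [Finite (IsLocalRing.ResidueField (A0 K₀ A))] (ζ₀ : A0 K₀ A)
    {F E : Type} [Field F] [Algebra (A0 K₀ A) F] [Field E] [CharZero E] [Algebra (A0 K₀ A) E]
    [Algebra E F] [IsScalarTower (A0 K₀ A) E F] [FiniteDimensional E F]
    {Φ : F →+* LaurentSeries K₀} {w' : F →+* F} {X : E}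
    (C : PL.Ctx M p (r0 K₀ A) (ζ₀ - 1) Φ w' X ζ₀) {W : F} {t₀ : LaurentSeries K₀}
    (hnp : ∀ h : FF (M * p), (h : LL) ^ p ≠ bc K₀ (Φ W))
    (ht₀ : t₀ ^ p = Φ W) (ht₀lc : t₀.leadingCoeff = 1)
    {Y₁ η ξ' ξ g₁ g₂ : F} (hY₁ : Y₁ ≠ 0)
    (hY₁W : Y₁ ^ p * W = 1 + algebraMap (A0 K₀ A) F (ζ₀ - 1) ^ p * ξ')
    (hξ' : IntX (A0 K₀ A) X⁻¹ ξ') (hco : ∀ n : ℤ, n ≤ 0 → (Φ ξ').coeff n = 0)
    (hη : IsOLx (ζ₀ - 1) X η)
    (hrel : (1 + algebraMap (A0 K₀ A) F (ζ₀ - 1) * η) ^ p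
            * (1 + algebraMap (A0 K₀ A) F (ζ₀ - 1) ^ p * ξ')
          = 1 + algebraMap (A0 K₀ A) F (ζ₀ - 1) ^ p * ξ)
    (hξ : IntX (A0 K₀ A) X ξ) (hg₁ : IntX (A0 K₀ A) X g₁) (hg₂ : IntX (A0 K₀ A) X g₂)
    (hr₁ : RedK (r0 K₀ A) (Φ (g₁ ^ p - g₁ - ξ)) 0)
    (hr₂ : RedK (r0 K₀ A) (Φ (w' (g₂ ^ p - g₂ - ξ))) 0)
    -- the output of `Cover.cover_main` for `f`
    (f : Dm (M * p) p) (a c : ℕ → LaurentSeries K₀) (β : K₀) (e : ℕ → FF (M * p))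
    (ha : ∀ i, a i ∈ modularFunctionFieldFullC K₀ (M * p))
    (hc : ∀ i, c i ∈ modularFunctionFieldFullC K₀ (M * p))
    (he0 : (∑ i ∈ Finset.range p, (e i : LL) * (bc K₀ t₀) ^ i) ≠ 0)
    (hf' : bc K₀ (∑ i ∈ Finset.range p, a i * t₀ ^ i)
        = (((f : (FF (M * p))ˣ) : FF (M * p)) : LL)
          * (∑ i ∈ Finset.range p, (e i : LL) * (bc K₀ t₀) ^ i) ^ p)
    (hτ : ∑ i ∈ Finset.range p, a i * (HahnSeries.C (ζ₀ : K₀) * t₀) ^ i
        = HahnSeries.C β * (∑ i ∈ Finset.range p, a i * t₀ ^ i)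
          * (∑ i ∈ Finset.range p, c i * t₀ ^ i) ^ p)
    -- `ValZ`
    {εβ : A0 K₀ A} (hεβ : IsUnit εβ) {nβ : ℤ}
    (hβ : β = algebraMap (A0 K₀ A) K₀ εβ * algebraMap (A0 K₀ A) K₀ (ζ₀ - 1) ^ ((p : ℤ) * nβ)) :
    ∃ c₀ : ℤ, Eis.NC M A p
      ((((f : (FF (M * p))ˣ) : FF (M * p)) : LaurentSeries Qb) ^ ((12 * (p - 1) : ℕ) : ℤ)
        * XD Qb p ^ (-c₀)) := by
  classical
  -- `W` is not a `p`-th power in `F`
  have hmemF : ∀ h : F, bc K₀ (Φ h) ∈ modularFunctionFieldBar (M * p) := fun h =>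
    Fermat.Agent.Crux.coeffMap_mem_bar K₀ (M * p) ((C.S.hΦF _).2 ⟨h, rfl⟩)
  have hnpF : ∀ h : F, h ^ p ≠ W := by
    intro h hh
    apply hnp ⟨bc K₀ (Φ h), hmemF h⟩
    show (bc K₀ (Φ h)) ^ p = _
    rw [← map_pow, ← map_pow, hh]
  have hW0 : W ≠ 0 := by
    rintro rfl
    exact hnpF 0 (zero_pow hp.ne_zero)
  -- `InvK`
  have hfd0 : FiniteDimensional Qb⟮S24.jN (M * p)⟯ (FF (M * p)) := S24.finiteDimensional_FN (M * p)
  haveI hfd : FiniteDimensional Qb⟮XF M p⟯ (FF (M * p)) :=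
    S24.FF.finiteDimensional_of_transcendental Qb (S24.jN (M * p)) (transcendental_XF M p)
  have hXm : bc K₀ (castS K₀ (Xh M p)) = ((XF M p : FF (M * p)) : LL) := by
    show coeffMap (algebraMap K₀ Qb) (castS K₀ (Xh M p)) = _
    rw [Crux.GM.coeffMap_castS]
    rfl
  let WF : FF (M * p) := ⟨bc K₀ (Φ W), hmemF W⟩
  have htW : (bc K₀ t₀) ^ p = (WF : LL) := by
    show (bc K₀ t₀) ^ p = bc K₀ (Φ W)
    rw [← map_pow, ht₀]
  have hWF : ∀ b : FF (M * p), b ^ p ≠ WF := fun b hb => hnp b (congrArg Subtype.val hb)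
  obtain ⟨n, uu, vv, huu, hvv, hU, hV, hUV⟩ := Cover.invK_cover hp (castS K₀ (Xh M p)) (XF M p) hXm
    t₀ WF htW hWF ((f : (FF (M * p))ˣ) : FF (M * p)) (f : (FF (M * p))ˣ).ne_zero (fun P => f.2 P)
    (∑ i ∈ Finset.range p, a i * t₀ ^ i) (∑ i ∈ Finset.range p, (e i : LL) * (bc K₀ t₀) ^ i)
    (Cover.sum_mem_adjoin _ _ _ (IntermediateField.mem_adjoin_simple_self (FF (M * p)) _) p) he0 hf'
  -- `xb`, `Xb`
  obtain ⟨xb, hxb⟩ : ∃ xb : modularFunctionFieldFullC (IsLocalRing.ResidueField (A0 K₀ A)) M,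
      (xb : LaurentSeries (IsLocalRing.ResidueField (A0 K₀ A)))
        = castS (IsLocalRing.ResidueField (A0 K₀ A)) (Xh M p) :=
    ⟨⟨_, C.mem₁ C.redX (by rw [C.wX]; exact C.redX)⟩, rfl⟩
  obtain ⟨Xb, hXb⟩ : ∃ Xb : modularFunctionFieldFullC (IsLocalRing.ResidueField (A0 K₀ A)) M,
      (Xb : LaurentSeries (IsLocalRing.ResidueField (A0 K₀ A)))
        = XD.XD (IsLocalRing.ResidueField (A0 K₀ A)) p := by
    letI := algL (A := A0 K₀ A) F X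
    obtain ⟨B, G, -⟩ := exists_good0 C
    obtain ⟨X₀, -, -, -, -, -, -, h⟩ := exists_XData C G
    exact ⟨⟨XD.XD _ p, by rw [← h]; exact G.r₁_mem_full X₀⟩, rfl⟩
  have hfL : (((f : (FF (M * p))ˣ) : FF (M * p)) : LL) ≠ 0 := fun h => (f : (FF (M * p))ˣ).ne_zero (Subtype.ext h)
  have h0 : ∑ i ∈ Finset.range p, a i * t₀ ^ i ≠ 0 := by
    intro h
    rw [h, map_zero] at hf'
    exact mul_ne_zero hfL (pow_ne_zero p he0) hf'.symm
  obtain ⟨a', c', φ, hφ0, hφ, hncv⟩ := absX' C hp5 ht₀ hnpF hY₁ hY₁W hξ' hco hη hrel hξ hg₁ hg₂ hr₁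
    hr₂ a c ha hc h0 hεβ (nβ := nβ) (by rw [← hβ]; exact hτ) uu vv huu hvv hU hV hUV xb Xb hxb hXb
  -- the Gauss-integral root
  obtain ⟨Y, hY, hYt⟩ := Core_exists_Y C ht₀ hW0 hY₁ hY₁W hξ' hco hη
  let YF : FF (M * p) := ⟨bc K₀ (Φ Y), hmemF Y⟩
  have hYL : bc K₀ (Φ Y) ≠ 0 := by
    rw [Ne, map_eq_zero, map_eq_zero]; exact hY
  have hsum : ∑ i ∈ Finset.range p, (((e i * (YF⁻¹) ^ i : FF (M * p))) : LL)
        * (coeffMap (algebraMap K₀ Qb) (Φ Y * t₀)) ^ i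
      = ∑ i ∈ Finset.range p, (e i : LL) * (bc K₀ t₀) ^ i := by
    refine Finset.sum_congr rfl fun i _ => ?_
    show ((e i : LL) * ((bc K₀ (Φ Y))⁻¹) ^ i) * (bc K₀ (Φ Y * t₀)) ^ i = _
    rw [map_mul, mul_pow, inv_pow]
    have := pow_ne_zero i hYL
    field_simp
  have hπ0 : algebraMap (A0 K₀ A) K₀ (ζ₀ - 1) ≠ 0 := by
    rw [Ne, map_eq_zero_iff _ (IsFractionRing.injective (A0 K₀ A) K₀)]
    exact C.irr.ne_zero
  refine ⟨-c', ?_⟩
  refine Places.nc_sum hp hpM hA (Places.compat_A0 A K₀) ((f : (FF (M * p))ˣ) : FF (M * p))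
    (fun i => e i * (YF⁻¹) ^ i) hYt (by rw [hsum]; exact he0) (by rw [hsum]; exact hf')
    (zpow_ne_zero (-a') hπ0) φ xb Xb hφ0 hxb hXb (by rw [map_zpow₀]; exact hφ) (12 * (p - 1)) (-c')
    ?_
  intro V hV
  rw [neg_neg]
  exact hncv V hV

end

end Fermat.Agent.S44.Const
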