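import Fermat.Agent.S44.Const.Red
import Fermat.Agent.S44.PL.Alg
import Fermat.Agent.S44.Bridge.RedDict

/-!
# S44 / Const / CovAlg : the polynomial `G = G₀ - ξ`, `(1 + ϖ Z)^p = 1 + ϖ^p G₀(Z)`, of the cover.

All lemmas are elementary consequences of `PL.exists_G0`, `PL.wilson_cyclo`, `PL.prod_X_sub_C_add`.

TASKS (project S44): `S44/Const-GFac` (`GData.fac`), `S44/Const-GDer` (`GData.der`, `GData.tau`, `GData.gen_pow`), `S44/Const-GIrr` (`GData.irreducible`),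
`S44/Const-GIdx` (`GData.root`, `GData.index`).
-/

set_option autoImplicit false
set_option linter.unusedSectionVars false

open Polynomial

namespace Fermat.Agent.S44.Const

open Fermat.Agent.S44.Loc Fermat.Agent.S44.Bridge Fermat.Agent.SS.GM2

/-- the data of `PL.exists_G0` + `PL.wilson_cyclo`. -/
structure GData {S : Type*} [CommRing S] (p : ℕ) (ϖ ζ s₀ : S) (G₀ H : S[X]) : Prop where
  hp : p.Prime
  hζ : ζ ^ p = 1
  hϖ : ϖ = ζ - 1
  ne : ϖ ≠ 0
  monic : G₀.Monic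
  deg : G₀.natDegree = p
  degH : H.natDegree < p
  pow : (1 + C ϖ * X) ^ p = 1 + C (ϖ ^ p) * G₀
  eq : G₀ = X ^ p - X + C ϖ * H
  der : derivative G₀ * C (ϖ ^ (p - 1)) = C (p : S) * (1 + C ϖ * X) ^ (p - 1)
  wil : (p : S) = ϖ ^ (p - 1) * (-1 + ϖ * s₀)

theorem exists_gData {S : Type*} [CommRing S] [IsDomain S] {p : ℕ} (hp : p.Prime) (hp2 : p ≠ 2)
    {ζ : S} (hζ : IsPrimitiveRoot ζ p) : ∃ (s₀ : S) (G₀ H : S[X]), GData p (ζ - 1) ζ s₀ G₀ H := by
  obtain ⟨s₀, hs₀⟩ := PL.wilson_cyclo hp hp2 hζ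
  obtain ⟨G₀, H, h1, h2, h3, h4, h5, h6⟩ := PL.exists_G0 hp hp2 hs₀
  exact ⟨s₀, G₀, H, hp, hζ.pow_eq_one, rfl, sub_ne_zero.2 (hζ.ne_one hp.one_lt), h1, h2, h3, h4, h5,
    h6, hs₀⟩

namespace GData

variable {S : Type*} [CommRing S] [IsDomain S] {p : ℕ} {ϖ ζ s₀ : S} {G₀ H : S[X]}
  (D : GData p ϖ ζ s₀ G₀ H) (ξ : S)

include D

theorem monic_sub : (G₀ - C ξ).Monic := by
  apply D.monic.sub_of_left
  rw [degree_eq_natDegree D.monic.ne_zero, D.deg]
  exact lt_of_le_of_lt degree_C_le (by exact_mod_cast D.hp.pos)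

theorem dvd_p : ϖ ∣ (p : S) := by
  rw [D.wil]
  exact Dvd.dvd.mul_right (dvd_pow_self _ (Nat.sub_ne_zero_of_lt D.hp.one_lt)) _

/-- TASK `S44/Const-GFac`.  `CharP (S ⧸ Q) p` (`p ∈ Q` by `dvd_p`, `Q` prime so `S ⧸ Q` is a nontrivial domain: `CharP.ofPrime`-type / `charP_of_prime_pow_injective` /
`CharP.of_..`: simplest `(CharP.exists (S ⧸ Q))` + `p = 0` + primality).  `G₀.map = X^p - X` (`D.eq`, `mk ϖ = 0`).
`PL.prod_X_sub_C_add hp (mk g)`, `Fin.prod_univ_eq_prod_range`, `mk (g^p - g) = mk ξ`. -/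
theorem fac {Q : Ideal S} (hQ : Q.IsPrime) (hϖQ : ϖ ∈ Q) {g : S} (hg : g ^ p - g - ξ ∈ Q) :
    (G₀ - C ξ).map (Ideal.Quotient.mk Q)
      = ∏ i : Fin p, (X - C (Ideal.Quotient.mk Q (g + cI S p i))) := by
  have hpQ : (p : S) ∈ Q := by
    obtain ⟨c, hc⟩ := D.dvd_p
    rw [hc]
    exact Q.mul_mem_right _ hϖQ
  have hp0 : ((p : ℕ) : S ⧸ Q) = 0 := by
    rw [← map_natCast (Ideal.Quotient.mk Q), Ideal.Quotient.eq_zero_iff_mem]
    exact hpQ
  have hnt : Nontrivial (S ⧸ Q) := Ideal.Quotient.nontrivial_iff.2 hQ.ne_top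
  have hchar : CharP (S ⧸ Q) p := (CharP.charP_iff_prime_eq_zero D.hp).2 hp0
  have hϖ0 : Ideal.Quotient.mk Q ϖ = 0 := Ideal.Quotient.eq_zero_iff_mem.2 hϖQ
  have hξ : Ideal.Quotient.mk Q g ^ p - Ideal.Quotient.mk Q g = Ideal.Quotient.mk Q ξ := by
    rw [← sub_eq_zero, ← map_pow, ← map_sub, ← map_sub]
    exact Ideal.Quotient.eq_zero_iff_mem.2 hg
  have h1 : ∏ i : Fin p, (X - C (Ideal.Quotient.mk Q (g + cI S p i)))
      = ∏ i ∈ Finset.range p, (X - C (Ideal.Quotient.mk Q g + ((i : ℕ) : S ⧸ Q))) := by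
    rw [← Fin.prod_univ_eq_prod_range
      (fun i : ℕ => (X - C (Ideal.Quotient.mk Q g + ((i : ℕ) : S ⧸ Q)) : (S ⧸ Q)[X])) p]
    refine Finset.prod_congr rfl fun i _ => ?_
    rw [map_add, cI, map_natCast]
  rw [h1, PL.prod_X_sub_C_add D.hp, hξ, D.eq]
  simp only [Polynomial.map_sub, Polynomial.map_add, Polynomial.map_mul, Polynomial.map_pow,
    Polynomial.map_X, Polynomial.map_C, hϖ0, map_zero, zero_mul, add_zero]

variable {S' : Type*} [CommRing S'] [IsDomain S'] [Algebra S S'] (pb : PowerBasis S S')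
  (hmin : minpoly S pb.gen = G₀ - C ξ)

include hmin

/-- TASK `S44/Const-GDer`.  `aeval z` of `D.pow`; `aeval z G₀ = ξ` from `minpoly.aeval`. -/
theorem gen_pow : (1 + algebraMap S S' ϖ * pb.gen) ^ p = algebraMap S S' (1 + ϖ ^ p * ξ) := by
  have h0 : aeval pb.gen G₀ = algebraMap S S' ξ := by
    have h1 := minpoly.aeval S pb.gen
    rw [hmin, map_sub, aeval_C, sub_eq_zero] at h1
    exact h1
  have h2 := congrArg (aeval pb.gen) D.pow
  simp only [map_pow, map_add, map_one, map_mul, aeval_C, aeval_X, h0] at h2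
  rw [h2]
  simp only [map_pow, map_add, map_one, map_mul]

/-- TASK `S44/Const-GDer`.  `w := 1 + ϖ z`.  `aeval z` of `D.der`, `D.wil`, cancel `ϖ^(p-1)` (`pb.basis.algebraMap_injective`, `D.ne`, `S'` a domain):
`G₀'(z) = (-1 + ϖ s₀) (1 + ϖ z)^(p-1)`; multiply by `1 + ϖ z`, `gen_pow`:  `s' := s₀ - ϖ^(p-1) ξ + ϖ^p s₀ ξ`. -/
theorem der' : ∃ (w : S') (s' : S), aeval pb.gen (derivative (minpoly S pb.gen)) * w
    = algebraMap S S' (-1 + ϖ * s') := by
  have hinj : Function.Injective (algebraMap S S') := pb.basis.algebraMap_injective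
  have hϖ' : algebraMap S S' ϖ ≠ 0 := by
    rw [Ne, map_eq_zero_iff _ hinj]
    exact D.ne
  have hp1 : p - 1 + 1 = p := Nat.sub_add_cancel D.hp.one_lt.le
  refine ⟨1 + algebraMap S S' ϖ * pb.gen, s₀ - ϖ ^ (p - 1) * ξ + ϖ ^ p * s₀ * ξ, ?_⟩
  have h1 : derivative (minpoly S pb.gen) = derivative G₀ := by
    rw [hmin, derivative_sub, derivative_C, sub_zero]
  rw [h1]
  have h2 := congrArg (aeval pb.gen) D.der
  simp only [map_pow, map_add, map_one, map_mul, aeval_C, aeval_X] at h2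
  rw [D.wil] at h2
  have h3 : aeval pb.gen (derivative G₀)
      = algebraMap S S' (-1 + ϖ * s₀) * (1 + algebraMap S S' ϖ * pb.gen) ^ (p - 1) := by
    apply mul_right_cancel₀ (pow_ne_zero (p - 1) hϖ')
    rw [h2]
    simp only [map_pow, map_add, map_one, map_mul, map_neg]
    ring
  rw [h3, mul_assoc, ← pow_succ, hp1, D.gen_pow ξ pb hmin, ← map_mul]
  congr 1
  have h4 : ϖ ^ p = ϖ * ϖ ^ (p - 1) := by rw [← pow_succ', hp1]
  rw [h4]
  ring

/-- TASK `S44/Const-GDer`.  `1 + ϖ (ζ z + 1) = ζ (1 + ϖ z)` (`D.hϖ`), `ζ^p = 1`, `aeval` of `D.pow` at `ζ z + 1` and at `z`, cancel `ϖ^p`. -/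
theorem tau : aeval (algebraMap S S' ζ * pb.gen + 1) (minpoly S pb.gen) = 0 := by
  have hinj : Function.Injective (algebraMap S S') := pb.basis.algebraMap_injective
  have hϖ' : algebraMap S S' ϖ ≠ 0 := by
    rw [Ne, map_eq_zero_iff _ hinj]
    exact D.ne
  have h2 := congrArg (aeval (algebraMap S S' ζ * pb.gen + 1)) D.pow
  simp only [map_pow, map_add, map_one, map_mul, aeval_C, aeval_X] at h2
  have h3 : 1 + algebraMap S S' ϖ * (algebraMap S S' ζ * pb.gen + 1)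
      = algebraMap S S' ζ * (1 + algebraMap S S' ϖ * pb.gen) := by
    rw [D.hϖ]
    simp only [map_sub, map_one]
    ring
  rw [h3, mul_pow, ← map_pow, D.hζ, map_one, one_mul, D.gen_pow ξ pb hmin] at h2
  simp only [map_pow, map_add, map_one, map_mul] at h2
  have h4 := mul_left_cancel₀ (pow_ne_zero p hϖ') (add_left_cancel h2)
  rw [hmin, map_sub, aeval_C, ← h4, sub_self]

omit hmin

/-- TASK `S44/Const-GIrr`.  `X^p - C W₁` is irreducible over `F` (`X_pow_sub_C_irreducible_of_prime D.hp hnp`), `W₁ = 1 + ϖ^p ξ`;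
`C (ϖ^p) * G.map = (X^p - C W₁).comp (1 + C ϖ * X)` (`D.pow`); the substitution `X ↦ ϖ X + 1` is an automorphism of `F[X]`
(`Polynomial.algEquivCMulXAddC`, `ϖ ≠ 0` in `F`), so it preserves irreducibility (`MulEquiv.irreducible_iff`); `C (ϖ^p)` is a unit. -/
theorem irreducible {F : Type*} [Field F] [Algebra S F] [IsFractionRing S F]
    (hnp : ∀ h : F, h ^ p ≠ algebraMap S F (1 + ϖ ^ p * ξ)) :
    Irreducible ((G₀ - C ξ).map (algebraMap S F)) := by
  set w : F := algebraMap S F ϖ with hw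
  have hw0 : w ≠ 0 := by
    rw [hw, Ne, map_eq_zero_iff _ (IsFractionRing.injective S F)]
    exact D.ne
  let _ : Invertible w := invertibleOfNonzero hw0
  have hirr : Irreducible (X ^ p - C (algebraMap S F (1 + ϖ ^ p * ξ)) : F[X]) :=
    X_pow_sub_C_irreducible_of_prime D.hp hnp
  have hirr2 : Irreducible (algEquivCMulXAddC w 1
      (X ^ p - C (algebraMap S F (1 + ϖ ^ p * ξ)) : F[X])) :=
    (MulEquiv.irreducible_iff (algEquivCMulXAddC w 1)).2 hirr
  have hpow : (1 + C w * X : F[X]) ^ p = 1 + C (w ^ p) * G₀.map (algebraMap S F) := by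
    have h := congrArg (Polynomial.map (algebraMap S F)) D.pow
    simpa using h
  have hkey : algEquivCMulXAddC w 1 (X ^ p - C (algebraMap S F (1 + ϖ ^ p * ξ)) : F[X])
      = C (w ^ p) * (G₀ - C ξ).map (algebraMap S F) := by
    rw [algEquivCMulXAddC_apply, map_sub, map_pow, aeval_X, aeval_C, C_1, add_comm (C w * X) 1,
      hpow, Polynomial.map_sub, Polynomial.map_C]
    simp only [algebraMap_eq, map_add, map_mul, map_one, map_pow, ← hw]
    ring
  rw [hkey] at hirr2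
  have hu : IsUnit (C (w ^ p) : F[X]) := isUnit_C.2 (pow_ne_zero p hw0).isUnit
  exact (irreducible_isUnit_mul hu).1 hirr2

/-- TASK `S44/Const-GIdx`.  `eval₂ φ z` of `D.pow`; cancel `φ ϖ ^ p ≠ 0`. -/
theorem root {LL : Type*} [Field LL] (φ : S →+* LL) (hφ : φ ϖ ≠ 0) {z : LL}
    (hz : (1 + φ ϖ * z) ^ p = 1 + φ ϖ ^ p * φ ξ) : eval₂ φ z (G₀ - C ξ) = 0 := by
  have h := congrArg (eval₂ φ z) D.pow
  simp only [eval₂_pow, eval₂_add, eval₂_one, eval₂_mul, eval₂_C, eval₂_X, map_pow] at h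
  rw [hz] at h
  have h2 := mul_left_cancel₀ (pow_ne_zero p hφ) (add_left_cancel h)
  rw [eval₂_sub, eval₂_C, ← h2, sub_self]

/-- TASK `S44/Const-GIdx`.  Reduce `G(z) = 0`: `G₀ = X^p - X + C ϖ * H`; `RedK r (eval₂ _ z P) (eval₂ ρ b P)` for every `P : S[X]` (induction, `RD.red`, `RedK.add/mul/pow`);
`ρ ϖ = 0` (`RD.red ϖ`, `RD.pi`, `RedK.of_C`, `RD.rpi`, `RedK.unique`).  So `b^p - b = ρ ξ = (ρ g)^p - ρ g`; `c := b - ρ g` satisfies `c^p = c` in the field `k((q))` of characteristic `p`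
(`sub_pow_char` / `CharP`), so `∏_{i<p} (c - i) = 0` (`PL.prod_X_sub_C_add hp 0` evaluated at `c`). -/
theorem index {A K k F : Type*} [CommRing A] [IsDomain A] [Field K] [Algebra A K]
    [IsFractionRing A K] [Field k] [CharP k p] {r : A →+* k} {π : A} [Field F] [Algebra S F]
    [IsFractionRing S F] {Φ : F →+* LaurentSeries K} {ρ : S →+* LaurentSeries k}
    (RD : RedData r π Φ ρ ϖ) {z : LaurentSeries K}
    (hz : eval₂ (Φ.comp (algebraMap S F)) z (G₀ - C ξ) = 0) {b : LaurentSeries k} (hb : RedK r z b)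
    {g : S} (hg : ρ (g ^ p - g - ξ) = 0) : ∃ i0 : Fin p, b = ρ (g + cI S p i0) := by
  have hP : ∀ P : S[X], RedK r (eval₂ (Φ.comp (algebraMap S F)) z P) (eval₂ ρ b P) := by
    intro P
    rw [eval₂_eq_sum_range, eval₂_eq_sum_range]
    exact RedK.sum _ _ _ fun i _ => (RD.red _).mul (hb.pow i)
  have h0 : eval₂ ρ b (G₀ - C ξ) = 0 := by
    have h1 := hP (G₀ - C ξ)
    rw [hz] at h1
    exact h1.unique RedK.zero
  have hϖ0 : ρ ϖ = 0 := by
    have h1 := RD.red ϖ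
    rw [RD.pi] at h1
    have h2 := RedK.of_C (K := K) (r := r) π
    rw [RD.rpi, map_zero] at h2
    exact h1.unique h2
  have h1 : b ^ p - b - ρ ξ = 0 := by
    rw [D.eq] at h0
    simpa only [eval₂_sub, eval₂_add, eval₂_mul, eval₂_pow, eval₂_X, eval₂_C, hϖ0, zero_mul,
      add_zero] using h0
  have h2 : ρ g ^ p - ρ g - ρ ξ = 0 := by
    rw [← hg, map_sub, map_sub, map_pow]
  have hchar : CharP (LaurentSeries k) p :=
    charP_of_injective_ringHom (f := (HahnSeries.C : k →+* LaurentSeries k))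
      HahnSeries.C_injective p
  have h3 := congrArg (eval b) (PL.prod_X_sub_C_add D.hp (ρ g))
  rw [eval_prod] at h3
  simp only [eval_sub, eval_X, eval_C, eval_pow] at h3
  have h4 : b ^ p - b - (ρ g ^ p - ρ g) = 0 := by linear_combination h1 - h2
  rw [h4, Finset.prod_eq_zero_iff] at h3
  obtain ⟨i, hi, hib⟩ := h3
  refine ⟨⟨i, Finset.mem_range.1 hi⟩, ?_⟩
  rw [map_add, cI, map_natCast]
  exact sub_eq_zero.1 hib

end GData

end Fermat.Agent.S44.Const
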