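import Fermat.Agent.S44.Const.Shift

/-!
# S44 / Const / MkCover : construction of the cover ring `S' = S[z]`, its fraction field, and the deck transformation (Mathlib only).

TASKS  `S44/Const-MkCover` (`exists_cover`), `S44/Const-Tau` (`exists_tau`).

`exists_cover`.  `S' := AdjoinRoot G`, `F' := AdjoinRoot (G.map (algebraMap S F))` (a field: `Fact (Irreducible _)`), `Algebra S' F' := (AdjoinRoot.map ..).toAlgebra`
(or `AdjoinRoot.lift`), `pb := AdjoinRoot.powerBasis' hG`, `Bp := AdjoinRoot.powerBasis (hG.map _).ne_zero`.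
* `S' → F'` is injective: if `P(root) = 0` in `F'` then `G.map ∣ P.map`, and `P = G * Q + R` (`modByMonic`), `deg R < deg G`, `G.map ∣ R.map` so `R = 0`.  Hence `IsDomain S'`.
* `IsFractionRing S' F'`: every element of `F'` is `P(root)`, `P ∈ F[X]`; clear the denominators of the coefficients by one `s ∈ S`, `s ≠ 0`
  (`IsLocalization.integerNormalization` or induction); so `F'` is the localisation of `S'` at `S \ 0`, and it is a field.
  (Alternative: `IsIntegralClosure`-free: `IsFractionRing.of_field`-type lemma / `IsLocalization` by hand: `map_units`, `surj`, `exists_of_eq`.)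
* `minpoly S (root G) = G`: `AdjoinRoot.minpoly_powerBasis_gen_of_monic` over `F` + `minpoly.isIntegrallyClosed_eq_field_fractions` + `Polynomial.map_injective`,
  or directly `minpoly.IsIntegrallyClosed`-uniqueness.
* `Algebra.IsSeparable F F'`: characteristic zero.
* `Ψ := AdjoinRoot.lift Φ z _`.
-/

set_option autoImplicit false
set_option linter.unusedSectionVars false

open Polynomial

namespace Fermat.Agent.S44.Const

open Fermat.Agent.S44.Loc

section MkCover

variable {S F : Type} [CommRing S] [IsDomain S] [Field F] [Algebra S F] [IsFractionRing S F]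
  (G : S[X])

/-- (helper) the map `S[z] → F[z]`. -/
noncomputable def MkCover_map : AdjoinRoot G →+* AdjoinRoot (G.map (algebraMap S F)) :=
  AdjoinRoot.map (algebraMap S F) G (G.map (algebraMap S F)) dvd_rfl

theorem MkCover_map_mk (P : S[X]) : MkCover_map (F := F) G (AdjoinRoot.mk G P) =
    AdjoinRoot.mk (G.map (algebraMap S F)) (P.map (algebraMap S F)) := by
  unfold MkCover_map AdjoinRoot.map
  rw [AdjoinRoot.lift_mk, ← eval₂_map, ← AdjoinRoot.algebraMap_eq, ← aeval_def, AdjoinRoot.aeval_eq]

theorem MkCover_map_injective (hG : G.Monic) : Function.Injective (MkCover_map (F := F) G) := by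
  rw [injective_iff_map_eq_zero]
  intro x hx
  obtain ⟨P, rfl⟩ := AdjoinRoot.mk_surjective x
  rw [MkCover_map_mk, AdjoinRoot.mk_eq_zero] at hx
  rw [AdjoinRoot.mk_eq_zero]
  exact (Polynomial.map_dvd_map _ (IsFractionRing.injective S F) hG).mp hx

theorem MkCover_minpoly (hG : G.Monic) : minpoly S (AdjoinRoot.root G) = G := by
  have hint : IsIntegral S (AdjoinRoot.root G) := ⟨G, hG, by
    rw [← aeval_def, AdjoinRoot.aeval_eq, AdjoinRoot.mk_self]⟩
  have h1 : G ∣ minpoly S (AdjoinRoot.root G) := by
    rw [← AdjoinRoot.mk_eq_zero, ← AdjoinRoot.aeval_eq, minpoly.aeval]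
  have h2 : (minpoly S (AdjoinRoot.root G)).degree ≤ G.degree :=
    minpoly.min S _ hG (by rw [AdjoinRoot.aeval_eq, AdjoinRoot.mk_self])
  exact Polynomial.eq_of_monic_of_dvd_of_natDegree_le hG (minpoly.monic hint) h1
    (natDegree_le_natDegree h2)

end MkCover

/-- TASK `S44/Const-MkCover`. -/
theorem exists_cover {S F LL : Type} [CommRing S] [IsDomain S] [IsIntegrallyClosed S] [Field F]
    [CharZero F] [Algebra S F] [IsFractionRing S F] [Field LL] (Φ : F →+* LL) (G : S[X])
    (hG : G.Monic) (hirr : Irreducible (G.map (algebraMap S F))) (z : LL)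
    (hz : eval₂ (Φ.comp (algebraMap S F)) z G = 0) :
    ∃ (S' F' : Type) (_ : CommRing S') (_ : IsDomain S') (_ : Algebra S S') (_ : Field F')
      (_ : Algebra S' F') (_ : IsFractionRing S' F') (_ : Algebra S F') (_ : Algebra F F')
      (_ : IsScalarTower S F F') (_ : IsScalarTower S S' F') (_ : Algebra.IsSeparable F F')
      (pb : PowerBasis S S') (Bp : PowerBasis F F') (Ψ : F' →+* LL),
      minpoly S pb.gen = G ∧ Bp.gen = algebraMap S' F' pb.gen ∧
      (∀ x, Ψ (algebraMap F F' x) = Φ x) ∧ Ψ Bp.gen = z := by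
  haveI : Fact (Irreducible (G.map (algebraMap S F))) := ⟨hirr⟩
  have hne : G.map (algebraMap S F) ≠ 0 := hirr.ne_zero
  letI iA : Algebra (AdjoinRoot G) (AdjoinRoot (G.map (algebraMap S F))) :=
    (MkCover_map G).toAlgebra
  have hinj : Function.Injective
      (algebraMap (AdjoinRoot G) (AdjoinRoot (G.map (algebraMap S F)))) :=
    MkCover_map_injective G hG
  haveI hdom : IsDomain (AdjoinRoot G) := hinj.isDomain _
  haveI : FaithfulSMul (AdjoinRoot G) (AdjoinRoot (G.map (algebraMap S F))) :=
    (faithfulSMul_iff_algebraMap_injective _ _).mpr hinj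
  have hfr : IsFractionRing (AdjoinRoot G) (AdjoinRoot (G.map (algebraMap S F))) := by
    refine IsFractionRing.of_field _ _ (fun z => ?_)
    obtain ⟨P, rfl⟩ := AdjoinRoot.mk_surjective z
    obtain ⟨b, hb, hP⟩ := IsLocalization.integerNormalization_spec (nonZeroDivisors S) P
    refine ⟨AdjoinRoot.mk G (IsLocalization.integerNormalization (nonZeroDivisors S) P),
      AdjoinRoot.mk G (C b), ?_⟩
    have hb0 : algebraMap S F b ≠ 0 := by
      rw [Ne, map_eq_zero_iff _ (IsFractionRing.injective S F)]
      exact nonZeroDivisors.ne_zero hb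
    have e1 : algebraMap (AdjoinRoot G) (AdjoinRoot (G.map (algebraMap S F)))
        (AdjoinRoot.mk G (IsLocalization.integerNormalization (nonZeroDivisors S) P)) =
        AdjoinRoot.mk _ (b • P) := by
      rw [← hP]; exact MkCover_map_mk G _
    have e2 : algebraMap (AdjoinRoot G) (AdjoinRoot (G.map (algebraMap S F)))
        (AdjoinRoot.mk G (C b)) = AdjoinRoot.mk _ (C (algebraMap S F b)) := by
      rw [← Polynomial.map_C]; exact MkCover_map_mk G _
    have hb1 : AdjoinRoot.mk (G.map (algebraMap S F)) (C (algebraMap S F b)) ≠ 0 := by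
      rw [AdjoinRoot.mk_C]
      exact (_root_.map_ne_zero (AdjoinRoot.of _)).mpr hb0
    rw [e1, e2, eq_div_iff hb1, ← map_mul]
    congr 1
    rw [mul_comm, ← Polynomial.smul_eq_C_mul, algebraMap_smul]
  have tower2 : IsScalarTower S (AdjoinRoot G) (AdjoinRoot (G.map (algebraMap S F))) := by
    refine IsScalarTower.of_algebraMap_eq (fun x => ?_)
    have : algebraMap (AdjoinRoot G) (AdjoinRoot (G.map (algebraMap S F)))
        (AdjoinRoot.mk G (C x)) = AdjoinRoot.mk _ (C (algebraMap S F x)) := by
      rw [← Polynomial.map_C]; exact MkCover_map_mk G _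
    rw [AdjoinRoot.algebraMap_eq, ← AdjoinRoot.mk_C, this, AdjoinRoot.mk_C]
    rfl
  haveI : Module.Finite F (AdjoinRoot (G.map (algebraMap S F))) :=
    (AdjoinRoot.powerBasis hne).finite
  refine ⟨AdjoinRoot G, AdjoinRoot (G.map (algebraMap S F)), inferInstance, hdom, inferInstance,
    inferInstance, iA, hfr, inferInstance, inferInstance, inferInstance, tower2, inferInstance,
    AdjoinRoot.powerBasis' hG, AdjoinRoot.powerBasis hne,
    AdjoinRoot.lift Φ z (by rw [eval₂_map]; exact hz), ?_, ?_, ?_, ?_⟩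
  · rw [AdjoinRoot.powerBasis'_gen]
    exact MkCover_minpoly G hG
  · rw [AdjoinRoot.powerBasis'_gen, AdjoinRoot.powerBasis_gen]
    exact (AdjoinRoot.map_root (algebraMap S F) G (G.map (algebraMap S F)) dvd_rfl).symm
  · intro x
    rw [AdjoinRoot.algebraMap_eq, AdjoinRoot.lift_of]
  · rw [AdjoinRoot.powerBasis_gen, AdjoinRoot.lift_root]

/-- TASK `S44/Const-Tau`.  `τ := pb.lift _ h`; `minpoly F Bp.gen = (minpoly S pb.gen).map _` (`minpoly.isIntegrallyClosed_eq_field_fractions`, `hB`), so
`τF := Bp.lift (algebraMap S' F' (ζ z + 1)) _`; compatibility by `pb.algHom_ext` (two `S`-algebra homs `S' → F'`). -/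
theorem exists_tau {S S' F F' : Type*} [CommRing S] [IsDomain S] [IsIntegrallyClosed S] [CommRing S']
    [IsDomain S'] [Algebra S S'] [Field F] [Field F'] [Algebra S F] [IsFractionRing S F]
    [Algebra S' F'] [IsFractionRing S' F'] [Algebra S F'] [Algebra F F'] [IsScalarTower S F F']
    [IsScalarTower S S' F'] (pb : PowerBasis S S') (Bp : PowerBasis F F')
    (hB : Bp.gen = algebraMap S' F' pb.gen) (ζ : S)
    (h : aeval (algebraMap S S' ζ * pb.gen + 1) (minpoly S pb.gen) = 0) :
    ∃ (τ : S' →ₐ[S] S') (τF : F' →ₐ[F] F'),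
      (∀ x, τF (algebraMap S' F' x) = algebraMap S' F' (τ x)) ∧
      τ pb.gen = algebraMap S S' ζ * pb.gen + 1 := by
  have hτ : pb.lift (algebraMap S S' ζ * pb.gen + 1) h pb.gen = algebraMap S S' ζ * pb.gen + 1 :=
    pb.lift_gen _ h
  have hint : IsIntegral S pb.gen := pb.isIntegral_gen
  haveI : Module.Free S S' := Module.Free.of_basis pb.basis
  have hmin : minpoly F Bp.gen = (minpoly S pb.gen).map (algebraMap S F) := by
    rw [hB]
    exact minpoly.isIntegrallyClosed_eq_field_fractions F F' hint
  have h2 : aeval (algebraMap S' F' (algebraMap S S' ζ * pb.gen + 1)) (minpoly F Bp.gen) = 0 := by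
    rw [hmin, aeval_map_algebraMap, aeval_algebraMap_apply, h, map_zero]
  refine ⟨pb.lift _ h, Bp.lift _ h2, ?_, hτ⟩
  have key : (((Bp.lift _ h2).restrictScalars S).comp (IsScalarTower.toAlgHom S S' F')) =
      (IsScalarTower.toAlgHom S S' F').comp (pb.lift _ h) := by
    apply pb.algHom_ext
    simp only [AlgHom.comp_apply, IsScalarTower.coe_toAlgHom', AlgHom.restrictScalars_apply, hτ]
    rw [← hB, Bp.lift_gen]
  intro x
  exact AlgHom.congr_fun key x

end Fermat.Agent.S44.Const
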