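import Fermat.Agent.S44.Const.Chart
import Fermat.Agent.S44.Const.CovAlg
import Fermat.Agent.S44.Const.MkCover

/-!
# S44 / Const / CovK : the chart theorems with `q`-expansions (layer 2).

`S`, `F`, `Φ : F → K((q))`, `ρL : S → L`, `emb : L → k((q))`, `RedData r π Φ (emb ∘ ρL) ϖ`; the cover `S'`, `F'`, `pb`, `Bp`, `Ψ : F' → K((q))` with
`minpoly S pb.gen = G₀ - C ξ`, `Ψ z` Gauss-integral.
-/

set_option autoImplicit false
set_option linter.unusedSectionVars false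
set_option linter.style.haveILetI false

open Polynomial

namespace Fermat.Agent.S44.Const

open Fermat.Agent.S44.Loc Fermat.Agent.S44.Bridge Fermat.Agent.SS.GM2

section

variable {A K k : Type*} [CommRing A] [IsDomain A] [Field K] [Algebra A K] [IsFractionRing A K]
  [Field k] {r : A →+* k} {π : A}
  {S S' F F' L : Type*} [CommRing S] [CommRing S'] [Algebra S S'] [Field F] [Field F'] [Field L]
  [Algebra S F] [Algebra S' F'] [Algebra S F'] [Algebra F F'] [IsScalarTower S F F']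
  [IsScalarTower S S' F'] {pb : PowerBasis S S'}
  {Φ : F →+* LaurentSeries K} {ϖ : S} {ρL : S →+* L} {emb : L →+* LaurentSeries k}

theorem rho'_aeval {Q : Ideal S} (hρ : ∀ x ∈ Q, ρL x = 0) {a : S}
    (ha : (minpoly S pb.gen).eval a ∈ Q) (P : S[X]) :
    rho' pb ρL hρ a ha (aeval pb.gen P) = ρL (P.eval a) := by
  change Ideal.Quotient.lift Q ρL hρ (ev pb Q a ha (aeval pb.gen P)) = _
  rw [ev_aeval, Ideal.Quotient.lift_mk]

/-- `RedData` for the cover ring. -/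
theorem redData_rho' (RD : RedData r π Φ (emb.comp ρL) ϖ) (Ψ : F' →+* LaurentSeries K)
    (hΨ : ∀ f, Ψ (algebraMap F F' f) = Φ f) {Q : Ideal S} (hρ : ∀ x ∈ Q, ρL x = 0) {a : S}
    (ha : (minpoly S pb.gen).eval a ∈ Q)
    (hz : RedK r (Ψ (algebraMap S' F' pb.gen)) (emb (ρL a))) :
    RedData r π Ψ (emb.comp (rho' pb ρL hρ a ha)) (algebraMap S S' ϖ) where
  red := by
    have hS : ∀ c : S, Ψ (algebraMap S' F' (algebraMap S S' c)) = Φ (algebraMap S F c) := by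
      intro c
      rw [← IsScalarTower.algebraMap_apply S S' F', IsScalarTower.algebraMap_apply S F F', hΨ]
    have key : ∀ P : S[X], RedK r (Ψ (algebraMap S' F' (aeval pb.gen P))) (emb (ρL (P.eval a))) := by
      intro P
      induction P using Polynomial.induction_on' with
      | add p q hp hq =>
        rw [map_add, map_add, map_add, eval_add, map_add, map_add]
        exact hp.add hq
      | monomial n c =>
        rw [aeval_monomial, map_mul, map_mul, map_pow, map_pow, hS, eval_monomial, map_mul, map_mul,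
          map_pow, map_pow]
        exact (RD.red c).mul (hz.pow n)
    intro x
    obtain ⟨P, rfl⟩ := pb.exists_eq_aeval' x
    rw [RingHom.comp_apply, rho'_aeval]
    exact key P
  pi := by
    rw [← IsScalarTower.algebraMap_apply S S' F', IsScalarTower.algebraMap_apply S F F', hΨ, RD.pi]
  rpi := RD.rpi
  ne := RD.ne

/-- `RedF` gives `RedK`. -/
theorem redK_of_redF {ρ' : S' →+* L} {Ψ : F' →+* LaurentSeries K} {ϖ' : S'}
    (RD' : RedData r π Ψ (emb.comp ρ') ϖ') {x : F'} {φ : L} (h : RedF ρ' x φ) :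
    RedK r (Ψ x) (emb φ) := by
  obtain ⟨s, o, hs, e, rfl⟩ := h
  have hs' : emb (ρ' s) ≠ 0 := by rwa [Ne, map_eq_zero]
  have h1 := (RD'.red o).div (RD'.red s) hs'
  have hs0 : Ψ (algebraMap S' F' s) ≠ 0 := by
    intro h0
    have h2 := RD'.red s
    rw [h0] at h2
    exact hs' (h2.unique RedK.zero)
  rw [map_div₀]
  refine h1.congr ?_ rfl
  rw [← e, map_mul]
  field_simp

end

section Main

variable {A K k : Type*} [CommRing A] [IsDomain A] [Field K] [Algebra A K] [IsFractionRing A K]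
  [Field k] {r : A →+* k} {π : A}
  {S S' F F' L : Type*} [CommRing S] [CommRing S'] [Algebra S S'] [Field F] [Field F'] [Field L]
  [Algebra S F] [Algebra S' F'] [Algebra S F'] [Algebra F F'] [IsScalarTower S F F']
  [IsScalarTower S S' F'] {pb : PowerBasis S S'}
  {Φ : F →+* LaurentSeries K} {ϖ : S} {ρL : S →+* L} {emb : L →+* LaurentSeries k}
  [IsDomain S] [IsNoetherianRing S] [IsIntegrallyClosed S] [IsDomain S'] [IsFractionRing S F]
  [IsFractionRing S' F'] [Algebra.IsSeparable F F'] {p : ℕ} [CharP k p]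

/-- `InvKAt` from integrality over `S[1/ϖ]`. -/
theorem invKAt_of_integral {n' : Ideal S'} (hnorm : NormalAt F' n' (algebraMap S S' ϖ)) {u : F'}
    (hinv : ∃ (s : ℕ) (Aa Bb : Fin s → F'),
      (∀ l, ∃ j : ℕ, IsIntegral S (algebraMap S F' ϖ ^ j * (Aa l ^ p * u))) ∧
      (∀ l, ∃ j : ℕ, IsIntegral S (algebraMap S F' ϖ ^ j * (Bb l ^ p * u⁻¹))) ∧
      ∑ l, Aa l * Bb l = 1) : InvKAt n' (algebraMap S S' ϖ) p u := by
  obtain ⟨s, Aa, Bb, hA, hBb, hsum⟩ := hinv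
  refine ⟨s, Aa, Bb, fun l => ?_, fun l => ?_, hsum⟩
  · obtain ⟨j, hj⟩ := hA l
    refine InRAt.of_isIntegral hnorm (j := j) ?_
    rw [← IsScalarTower.algebraMap_apply S S' F']
    exact hj.tower_top
  · obtain ⟨j, hj⟩ := hBb l
    refine InRAt.of_isIntegral hnorm (j := j) ?_
    rw [← IsScalarTower.algebraMap_apply S S' F']
    exact hj.tower_top

/-- the root `z`, its index `i0`. -/
theorem exists_index_red {ζ s₀ : S} {G₀ H : S[X]} (D : GData p ϖ ζ s₀ G₀ H) {ξ g : S}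
    (hmin : minpoly S pb.gen = G₀ - C ξ)
    (RD : RedData r π Φ (emb.comp ρL) ϖ) (Ψ : F' →+* LaurentSeries K)
    (hΨ : ∀ f, Ψ (algebraMap F F' f) = Φ f)
    {b : LaurentSeries k} (hb : RedK r (Ψ (algebraMap S' F' pb.gen)) b)
    (hg : ρL (g ^ p - g - ξ) = 0) : ∃ i0 : Fin p, b = emb (ρL (g + cI S p i0)) := by
  have hz : eval₂ (Φ.comp (algebraMap S F)) (Ψ (algebraMap S' F' pb.gen)) (G₀ - C ξ) = 0 := by
    have h1 : aeval pb.gen (G₀ - C ξ) = 0 := by rw [← hmin]; exact minpoly.aeval _ _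
    have h2 := congrArg (Ψ.comp (algebraMap S' F')) h1
    rw [map_zero, aeval_def, Polynomial.hom_eval₂] at h2
    have h3 : (Ψ.comp (algebraMap S' F')).comp (algebraMap S S') = Φ.comp (algebraMap S F) := by
      ext c
      simp only [RingHom.comp_apply]
      rw [← IsScalarTower.algebraMap_apply S S' F', IsScalarTower.algebraMap_apply S F F', hΨ]
    rw [h3] at h2
    exact h2
  exact D.index ξ RD hz hb (by rw [RingHom.comp_apply, hg, map_zero])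

/-- **chart `X`, with `q`-expansions.** -/
theorem chart0K {ζ s₀ : S} {G₀ H : S[X]} (D : GData p ϖ ζ s₀ G₀ H) {ξ g1 g2 : S}
    (hmin : minpoly S pb.gen = G₀ - C ξ) (Bp : PowerBasis F F')
    (hB : Bp.gen = algebraMap S' F' pb.gen)
    (RD : RedData r π Φ (emb.comp ρL) ϖ) (Ψ : F' →+* LaurentSeries K)
    (hΨ : ∀ f, Ψ (algebraMap F F' f) = Φ f)
    {b : LaurentSeries k} (hb : RedK r (Ψ (algebraMap S' F' pb.gen)) b)
    {Q1 Q2 : Ideal S} (hρ : ∀ x ∈ Q1, ρL x = 0) (hker : ∀ x, ρL x = 0 → x ∈ Q1)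
    (hP1 : LocPrin Q1 ϖ) (hP2 : LocPrin Q2 ϖ) (hg1 : g1 ^ p - g1 - ξ ∈ Q1)
    (hg2 : g2 ^ p - g2 - ξ ∈ Q2)
    (tri : ∀ n : Ideal S, n.IsMaximal → Q1 ≤ n → NodeAt n ϖ Q1 Q2 ∨ SmoothAt n ϖ Q1)
    {X₀ U ε : S} {T : ℕ} (hX : XData F ϖ Q1 Q2 X₀ T) (hpT : Nat.Coprime p T)
    (hXU : X₀ * U = ϖ ^ T * ε) (hε : IsUnit ε)
    {u k1 : F'} (hu : u ≠ 0) {εβ : S} (hεβ : IsUnit εβ) {nβ : ℤ}
    (hτu : ∀ τF : F' →ₐ[F] F', τF (algebraMap S' F' pb.gen)
        = algebraMap S' F' (algebraMap S S' ζ * pb.gen + 1) →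
      τF u = (algebraMap S F' εβ * algebraMap S F' ϖ ^ ((p : ℤ) * nβ)) * u * k1 ^ p)
    (hinv : ∃ (s : ℕ) (Aa Bb : Fin s → F'),
      (∀ l, ∃ j : ℕ, IsIntegral S (algebraMap S F' ϖ ^ j * (Aa l ^ p * u))) ∧
      (∀ l, ∃ j : ℕ, IsIntegral S (algebraMap S F' ϖ ^ j * (Bb l ^ p * u⁻¹))) ∧
      ∑ l, Aa l * Bb l = 1) :
    ∃ (a c : ℤ) (φ : L), φ ≠ 0 ∧
      RedK r (Ψ u * (HahnSeries.C (algebraMap A K π) : LaurentSeries K) ^ (-a)) (emb φ) ∧
      ∀ V : ValuationSubring L, (∀ s, ρL s ∈ V) →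
        ∃ y : L, y ≠ 0 ∧ IsUnitIn V (y ^ p * (φ ^ T * ρL X₀ ^ c)) := by
  haveI : Module.Finite S S' := pb.finite
  haveI : IsNoetherianRing S' := IsNoetherianRing.of_finite S S'
  have hp := D.hp
  have hpQ1 : (p : S) ∈ Q1 := by
    obtain ⟨d, hd⟩ := D.dvd_p
    rw [hd]; exact Q1.mul_mem_right _ hP1.mem
  have hpQ2 : (p : S) ∈ Q2 := by
    obtain ⟨d, hd⟩ := D.dvd_p
    rw [hd]; exact Q2.mul_mem_right _ hP2.mem
  have fac1 := D.fac ξ hP1.prime hP1.mem hg1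
  have fac2 := D.fac ξ hP2.prime hP2.mem hg2
  rw [← hmin] at fac1 fac2
  have h1Q : EtData pb Q1 Q1 g1 (cI S p) := etData hp hP1.prime.ne_top hpQ1 fac1
  have h2Q : EtData pb Q2 Q2 g2 (cI S p) := etData hp hP2.prime.ne_top hpQ2 fac2
  obtain ⟨i0, hi0⟩ := exists_index_red D hmin RD Ψ hΨ hb (hρ _ hg1)
  have ha := h1Q.eval_mem i0
  have hP1' := locPrin_up hP1 h1Q i0
  have hP2' := fun j => locPrin_up hP2 h2Q j
  obtain ⟨a, hu1⟩ := exists_vEq hP1' hu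
  choose bb hu2 using fun j => exists_vEq (hP2' j) hu
  -- the deck transformation
  obtain ⟨τ, τF, hτ, hτgen⟩ := exists_tau pb Bp hB ζ (D.tau ξ pb hmin)
  have hτu' := hτu τF (by rw [hτ, hτgen])
  have hk1 : k1 ≠ 0 := by
    rintro rfl
    rw [zero_pow hp.ne_zero, mul_zero] at hτu'
    exact hu ((map_eq_zero τF).1 hτu')
  have hζQ2 : ζ - 1 ∈ Q2 := by rw [← D.hϖ]; exact hP2.mem
  have hβ : ∀ j, VEq (up pb Q2 (g2 + cI S p j) (h2Q.eval_mem j)) (algebraMap S S' ϖ) ((p : ℤ) * nβ)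
      (algebraMap S F' εβ * algebraMap S F' ϖ ^ ((p : ℤ) * nβ)) := by
    intro j
    have h1 : VEq (up pb Q2 (g2 + cI S p j) (h2Q.eval_mem j)) (algebraMap S S' ϖ) 0
        (algebraMap S' F' (algebraMap S S' εβ)) := by
      refine vEq_of_notMem (hP2' j) fun hm => ?_
      exact (hP2' j).prime.ne_top (Ideal.eq_top_of_isUnit_mem _ hm (hεβ.map _))
    have h2 := h1.mul (hP2' j) (vEq_pi_zpow (F := F') (hP2' j) ((p : ℤ) * nβ))
    rw [zero_add, ← IsScalarTower.algebraMap_apply S S' F',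
      ← IsScalarTower.algebraMap_apply S S' F'] at h2
    exact h2
  have hbb := fun j => dvd_sub_all (pb := pb) τ (τF : F' →+* F') hτ (fun j => h2Q.eval_mem j) hτgen
    hζQ2 hP2' hk1 hβ hτu' hu2 j ⟨0, hp.pos⟩
  obtain ⟨φ, hφ0, hφ⟩ := exists_redF_of_vEq (ρ := ρL) hρ ha hker
    (algebraMap_pi_ne_zero (F := F') hP1') hu1
  have RD' := redData_rho' (pb := pb) RD Ψ hΨ hρ ha (by rw [← hi0]; exact hb)
  refine ⟨a, a - bb ⟨0, hp.pos⟩, φ, hφ0, ?_, fun V hV => ?_⟩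
  · have h1 := redK_of_redF RD' hφ
    rwa [map_mul, map_zpow₀, RD'.pi] at h1
  · refine ncv Bp hB hp D.dvd_p hP1 fac1 fac2 (D.der' ξ pb hmin) tri hX hpT hXU hε ρL hρ hker i0 ha
      (fun j => h2Q.eval_mem j) hu1 hu2 hbb (fun n hn hQn => ?_) hφ V hV
    have hπn : ϖ ∈ n := hQn hP1.mem
    exact invKAt_of_integral (normalAt_up pb Bp hB hn.isPrime (hQn ha)
      (hder_of hn.ne_top hπn (D.der' ξ pb hmin))) hinv

/-- **chart `1/X`, with `q`-expansions.** -/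
theorem chartInfK {ζ s₀ : S} {G₀ H : S[X]} (D : GData p ϖ ζ s₀ G₀ H) {ξ g1 : S}
    (hmin : minpoly S pb.gen = G₀ - C ξ) (Bp : PowerBasis F F')
    (hB : Bp.gen = algebraMap S' F' pb.gen)
    (RD : RedData r π Φ (emb.comp ρL) ϖ) (Ψ : F' →+* LaurentSeries K)
    (hΨ : ∀ f, Ψ (algebraMap F F' f) = Φ f)
    {b : LaurentSeries k} (hb : RedK r (Ψ (algebraMap S' F' pb.gen)) b)
    {Q1 : Ideal S} (hρ : ∀ x ∈ Q1, ρL x = 0) (hker : ∀ x, ρL x = 0 → x ∈ Q1)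
    (hP1 : LocPrin Q1 ϖ) (hg1 : g1 ^ p - g1 - ξ ∈ Q1)
    {u : F'} (hu : u ≠ 0)
    (hinv : ∃ (s : ℕ) (Aa Bb : Fin s → F'),
      (∀ l, ∃ j : ℕ, IsIntegral S (algebraMap S F' ϖ ^ j * (Aa l ^ p * u))) ∧
      (∀ l, ∃ j : ℕ, IsIntegral S (algebraMap S F' ϖ ^ j * (Bb l ^ p * u⁻¹))) ∧
      ∑ l, Aa l * Bb l = 1) :
    ∃ (a : ℤ) (φ : L), φ ≠ 0 ∧
      RedK r (Ψ u * (HahnSeries.C (algebraMap A K π) : LaurentSeries K) ^ (-a)) (emb φ) ∧
      ∀ V : ValuationSubring L, (∀ s, ρL s ∈ V) →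
        (∀ n : Ideal S, n.IsMaximal → (∀ s, ρL s ∈ V.nonunits → s ∈ n) → SmoothAt n ϖ Q1) →
        ∃ y : L, y ≠ 0 ∧ IsUnitIn V (y ^ p * φ) := by
  haveI : Module.Finite S S' := pb.finite
  haveI : IsNoetherianRing S' := IsNoetherianRing.of_finite S S'
  have hp := D.hp
  have hpQ1 : (p : S) ∈ Q1 := by
    obtain ⟨d, hd⟩ := D.dvd_p
    rw [hd]; exact Q1.mul_mem_right _ hP1.mem
  have fac1 := D.fac ξ hP1.prime hP1.mem hg1
  rw [← hmin] at fac1
  have h1Q : EtData pb Q1 Q1 g1 (cI S p) := etData hp hP1.prime.ne_top hpQ1 fac1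
  obtain ⟨i0, hi0⟩ := exists_index_red D hmin RD Ψ hΨ hb (hρ _ hg1)
  have ha := h1Q.eval_mem i0
  have hP1' := locPrin_up hP1 h1Q i0
  obtain ⟨a, hu1⟩ := exists_vEq hP1' hu
  obtain ⟨φ, hφ0, hφ⟩ := exists_redF_of_vEq (ρ := ρL) hρ ha hker
    (algebraMap_pi_ne_zero (F := F') hP1') hu1
  have RD' := redData_rho' (pb := pb) RD Ψ hΨ hρ ha (by rw [← hi0]; exact hb)
  refine ⟨a, φ, hφ0, ?_, fun V hV hsm => ?_⟩
  · have h1 := redK_of_redF RD' hφ
    rwa [map_mul, map_zpow₀, RD'.pi] at h1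
  · refine cuv Bp hB hp D.dvd_p hP1 fac1 (D.der' ξ pb hmin) ρL hρ hker i0 ha hu1
      (fun n hn hQn => ?_) hφ V hV hsm
    have hπn : ϖ ∈ n := hQn hP1.mem
    exact invKAt_of_integral (normalAt_up pb Bp hB hn.isPrime (hQn ha)
      (hder_of hn.ne_top hπn (D.der' ξ pb hmin))) hinv

end Main

end Fermat.Agent.S44.Const
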